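import Fermat.Agent.LevelThree.Elliptic

/-!
# Removing a power of three from the level of a system modulo three

For `3 ∣ N` an eigenclass of level `3N` gives, by applying `σ - 1` for the conjugation `σ` until it
vanishes, an invariant one with the same system or the twist by the cyclotomic character. An
invariant class extends to level `N`, and a combination with a non-Eisenstein operator is again an
eigenclass.
-/

set_option autoImplicit false

noncomputable section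

namespace FLTAgent.LevelThree

open LevelRaise CongruenceSubgroup IsLocalRing
open scoped MatrixGroups

variable {N : ℕ} [NeZero N] {ι : Type} {l : ι → ℕ} {c : ι → ZMod 3}

/-- The system twisted by the cyclotomic character modulo three. -/
def twist (l : ι → ℕ) (c : ι → ZMod 3) : ι → ZMod 3 := fun i => (l i : ZMod 3) * c i

/-- Integral lifts of a system. -/
def liftSys (c : ι → ZMod 3) : ι → ℤ_[3] := fun i => ((c i).val : ℤ_[3])

theorem residue_natCast (n : ℕ) : residue ℤ_[3] (n : ℤ_[3]) = redThree (n : ZMod 3) := by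
  rw [map_natCast, map_natCast]

theorem residue_liftSys (c : ι → ZMod 3) (i : ι) :
    residue ℤ_[3] (liftSys c i) = redThree (c i) := by
  rw [liftSys, residue_natCast, ZMod.natCast_val, ZMod.cast_id]

/-- What the descent needs from a system. -/
structure Admissible (l : ι → ℕ) (c : ι → ZMod 3) : Prop where
  prime : ∀ i, (l i).Prime
  ne_three : ∀ i, l i ≠ 3
  two : ∃ i, l i % 3 = 2 ∧ c i ≠ 0
  nonEis : ∀ m : ℕ, m ≠ 0 → ∃ i, (l i : ZMod m) = 1 ∧ c i ≠ (l i : ZMod 3) + 1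

theorem Admissible.cast_ne_zero (h : Admissible l c) (i : ι) : (l i : ZMod 3) ≠ 0 := by
  rw [Ne, ZMod.natCast_eq_zero_iff, Nat.prime_dvd_prime_iff_eq Nat.prime_three (h.prime i)]
  exact fun e => h.ne_three i e.symm

theorem Admissible.exists_noneis (h : Admissible l c) (m : ℕ) (hm : m ≠ 0) :
    ∃ i, (l i : ZMod m) = 1 ∧ (l i : ZMod 3) = 1 ∧ c i ≠ (l i : ZMod 3) + 1 := by
  obtain ⟨i, h1, hc⟩ := h.nonEis (m * 3) (mul_ne_zero hm (by norm_num))
  refine ⟨i, ?_, ?_, hc⟩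
  · have := congrArg (ZMod.castHom (dvd_mul_right m 3) (ZMod m)) h1
    rwa [map_natCast, map_one] at this
  · have := congrArg (ZMod.castHom (dvd_mul_left 3 m) (ZMod 3)) h1
    rwa [map_natCast, map_one] at this

theorem Admissible.twist (h : Admissible l c) : Admissible l (twist l c) where
  prime := h.prime
  ne_three := h.ne_three
  two := by
    obtain ⟨i, h2, hc⟩ := h.two
    exact ⟨i, h2, mul_ne_zero (h.cast_ne_zero i) hc⟩
  nonEis m hm := by
    obtain ⟨i, h1, h3, hc⟩ := h.exists_noneis m hm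
    exact ⟨i, h1, by simpa [LevelThree.twist, h3] using hc⟩

theorem twist_twist (h : Admissible l c) : twist l (twist l c) = c :=
  funext fun i => by rw [twist, twist, ← mul_assoc, zmod3_sq (h.cast_ne_zero i), one_mul]

theorem Admissible.nonEisLift (h : Admissible l c) : RT.NonEis l (liftSys c) := fun m hm => by
  obtain ⟨i, h1, hc⟩ := h.nonEis m hm
  refine ⟨i, h1, (residue_ne_zero_iff_isUnit _).mp fun h0 => hc (redThree.injective ?_)⟩
  rw [map_sub, sub_eq_zero, residue_liftSys, map_add, map_one, residue_natCast] at h0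
  rw [h0, map_add, map_one]

theorem neZero_of_admissible (h : Admissible l c) (i : ι) : NeZero (l i) :=
  ⟨(h.prime i).ne_zero⟩

/-- A parabolic eigenclass of level `N`. -/
def HasClass (N : ℕ) [NeZero N] (l : ι → ℕ) (c : ι → ZMod 3) : Prop :=
  ∃ φ ∈ parHom (Gamma0 N) (ZMod 3), φ ≠ 0 ∧
    ∀ i, ∀ _ : NeZero (l i), heckeOp N (l i) φ = c i • φ

section Linear

variable (ℓ : ℕ) [NeZero ℓ]

/-- `T ℓ` as an additive map. -/
def heckeAdd (N : ℕ) [NeZero N] :
    (Additive (Gamma0 N) →+ ZMod 3) →+ (Additive (Gamma0 N) →+ ZMod 3) :=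
  AddMonoidHom.mk' (heckeOp N ℓ) (RT.heckeOp_add ℓ)

theorem heckeAdd_apply (φ : Additive (Gamma0 N) →+ ZMod 3) :
    heckeAdd ℓ N φ = heckeOp N ℓ φ := rfl

theorem heckeOp_smul' (d : ZMod 3) (φ : Additive (Gamma0 N) →+ ZMod 3) :
    heckeOp N ℓ (d • φ) = d • heckeOp N ℓ φ := by
  rw [RT.smul_eq_comp, map_heckeOp, ← RT.smul_eq_comp]

theorem heckeOp_sub' (φ ψ : Additive (Gamma0 N) →+ ZMod 3) :
    heckeOp N ℓ (φ - ψ) = heckeOp N ℓ φ - heckeOp N ℓ ψ :=
  map_sub (heckeAdd ℓ N) φ ψ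

theorem sig_smul (h3 : 3 ∣ N) (t d : ZMod 3) (ψ : Additive (Gamma0 (N * 3)) →+ ZMod 3) :
    sig h3 t (d • ψ) = d • sig h3 t ψ := AddMonoidHom.ext fun _ => rfl

end Linear

/-- The good operators commute. -/
theorem heckeOp_comm {ℓ m : ℕ} [NeZero ℓ] [NeZero m] (hℓ : ℓ.Prime) (hℓN : ¬ ℓ ∣ N)
    (hm : m.Prime) (hmN : ¬ m ∣ N) (φ : Additive (Gamma0 N) →+ ZMod 3) :
    heckeOp N ℓ (heckeOp N m φ) = heckeOp N m (heckeOp N ℓ φ) := by
  obtain ⟨Φ, rfl⟩ := (RT.toG0 (A := ZMod 3) N).surjective φ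
  rw [← RT.toG0_opT (ZMod 3) hm hmN, ← RT.toG0_opT (ZMod 3) hℓ hℓN,
    ← RT.toG0_opT (ZMod 3) hℓ hℓN, ← RT.toG0_opT (ZMod 3) hm hmN]
  exact congrArg (RT.toG0 N) (LinearMap.congr_fun
    (RT.opT_comm (R := ZMod 3) (A := ZMod 3) (χ := RT.trivChar) (one_dvd N) hℓ hℓN hm hmN).eq Φ)

theorem not_dvd_of_mul_three {N : ℕ} (hlN : ∀ i, ¬ l i ∣ N * 3) (i : ι) : ¬ l i ∣ N :=
  fun h => hlN i (h.trans (dvd_mul_right N 3))

/-- An eigenclass of level `3N` gives an invariant one, twisted or not. -/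
theorem exists_invariant (h3 : 3 ∣ N) (hs : Admissible l c) (hlN : ∀ i, ¬ l i ∣ N)
    (h : HasClass (N * 3) l c) :
    ∃ (c' : ι → ZMod 3) (w : Additive (Gamma0 (N * 3)) →+ ZMod 3),
      (c' = c ∨ c' = twist l c) ∧ w ∈ parHom (Gamma0 (N * 3)) (ZMod 3) ∧ w ≠ 0 ∧
        sig h3 1 w = w ∧ ∀ i, ∀ _ : NeZero (l i), heckeOp (N * 3) (l i) w = c' i • w := by
  obtain ⟨ψ, hψ, hψ0, hT⟩ := h
  have three : (3 : ZMod 3) = 0 := by decide
  have hsig : ∀ i, ∀ _ : NeZero (l i), ∀ t : ZMod 3,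
      heckeOp (N * 3) (l i) (sig h3 t ψ) = c i • sig h3 ((l i : ZMod 3) * t) ψ := fun i _ t => by
    have h := heckeOp_sig h3 (hs.prime i) (hlN i) ((l i : ZMod 3) * t) ψ
    rw [← mul_assoc, zmod3_sq (hs.cast_ne_zero i), one_mul, hT i inferInstance, sig_smul] at h
    exact h.symm
  by_cases hA : sig h3 1 ψ = ψ
  · exact ⟨c, ψ, Or.inl rfl, hψ, hψ0, hA, hT⟩
  set s1 := sig h3 1 ψ with hs1
  set s2 := sig h3 2 ψ with hs2
  have h11 : sig h3 1 s1 = s2 := by rw [hs1, sig_sig]; rfl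
  have h12 : sig h3 1 s2 = ψ := by rw [hs2, sig_sig, show (2 : ZMod 3) + 1 = 0 from rfl, sig_zero]
  have hl2 : ∀ i, (l i : ZMod 3) = 1 ∨ (l i : ZMod 3) = 2 := fun i => by
    have := hs.cast_ne_zero i
    revert this
    generalize (l i : ZMod 3) = x
    revert x
    decide
  by_cases hB : sig h3 1 (s1 - ψ) = s1 - ψ
  · refine ⟨twist l c, s1 - ψ, Or.inr rfl, sub_mem (sig_mem_parHom h3 1 hψ) hψ,
      sub_ne_zero.mpr hA, hB, fun i hi => ?_⟩
    rw [sig_sub, h11, ← hs1] at hB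
    rw [heckeOp_sub', hs1, hsig i hi, hT i hi, mul_one, twist]
    rcases hl2 i with h | h <;> rw [h]
    · rw [one_mul, ← hs1, smul_sub]
    · rw [← hs2, ← hs1]
      refine AddMonoidHom.ext fun γ => ?_
      have e := DFunLike.congr_fun hB γ
      simp only [AddMonoidHom.sub_apply, AddMonoidHom.smul_apply, smul_eq_mul] at e ⊢
      linear_combination (c i) * e
  · refine ⟨c, s2 - s1 - (s1 - ψ), Or.inl rfl,
      sub_mem (sub_mem (sig_mem_parHom h3 2 hψ) (sig_mem_parHom h3 1 hψ))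
        (sub_mem (sig_mem_parHom h3 1 hψ) hψ), fun h0 => hB ?_, ?_, fun i hi => ?_⟩
    · rw [sig_sub, h11, ← hs1]
      exact sub_eq_zero.mp h0
    · rw [sig_sub, sig_sub, sig_sub, h12, h11, ← hs1]
      refine AddMonoidHom.ext fun γ => ?_
      simp only [AddMonoidHom.sub_apply]
      linear_combination (s1 γ - s2 γ) * three
    · rw [heckeOp_sub', heckeOp_sub', heckeOp_sub', hs2, hs1, hsig i hi, hsig i hi, hT i hi,
        mul_one]
      rcases hl2 i with h | h <;> rw [h]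
      · rw [one_mul, ← hs2, ← hs1]
        simp only [smul_sub]
      · rw [show (2 : ZMod 3) * 2 = 1 from rfl, ← hs2, ← hs1]
        refine AddMonoidHom.ext fun γ => ?_
        simp only [AddMonoidHom.sub_apply, AddMonoidHom.smul_apply, smul_eq_mul]
        linear_combination (c i * (s1 γ - s2 γ)) * three

/-- A homomorphism with restriction zero is a multiple of `rhoHom`. -/
theorem eq_smul_rhoHom (h3 : 3 ∣ N) {D : Additive (Gamma0 N) →+ ZMod 3}
    (h : resHom (gamma0_mul_le N 3) D = 0) :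
    D = D (Additive.ofMul (gen N)) • rhoHom h3 := by
  refine AddMonoidHom.ext fun γ => ?_
  obtain ⟨γ, rfl⟩ := Additive.ofMul.surjective γ
  have h0 : D (Additive.ofMul (γ * (gen N ^ (rho N (γ : SL(2, ℤ))).val)⁻¹)) = 0 :=
    DFunLike.congr_fun h (Additive.ofMul
      (⟨_, div_gen_mem h3 γ⟩ : Gamma0 (N * 3)))
  rw [ofMul_mul, map_add, ofMul_inv, map_neg, ofMul_pow, map_nsmul, nsmul_eq_mul,
    ZMod.natCast_val, ZMod.cast_id, add_neg_eq_zero] at h0
  rw [AddMonoidHom.smul_apply, rhoHom_apply, smul_eq_mul, h0, mul_comm]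

/-- An invariant parabolic class extends to level `N`. -/
theorem exists_extend (h3 : 3 ∣ N) {w : Additive (Gamma0 (N * 3)) →+ ZMod 3}
    (hw : w ∈ parHom (Gamma0 (N * 3)) (ZMod 3)) (hinv : sig h3 1 w = w) :
    ∃ Ψ : Additive (Gamma0 N) →+ ZMod 3, resHom (gamma0_mul_le N 3) Ψ = w := by
  have hsig : ∀ n : ℕ, sig h3 (n : ZMod 3) w = w := fun n => by
    induction n with
    | zero => rw [Nat.cast_zero, sig_zero]
    | succ n ih => rw [Nat.cast_succ, ← sig_sig h3 1 (n : ZMod 3), ih, hinv]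
  have hconj : ∀ g : Gamma0 N, conjAct h3 g w = w := fun g => by
    rw [conjAct_eq_sig, ← ZMod.natCast_zmod_val (rho N (g : SL(2, ℤ))), hsig]
  have hg3 : w (Additive.ofMul ⟨_, gen_pow_three_mem h3⟩) = 0 := hw _ (by
    show trSL ((gen N ^ 3 : Gamma0 N) : SL(2, ℤ)) ^ 2 ≤ 4
    rw [SubgroupClass.coe_pow]
    exact trace_sq_le_pow (by simp [gen, trSL, slMk, Matrix.trace_fin_two]) 3)
  let r : Gamma0 N → ℕ := fun γ => (rho N (γ : SL(2, ℤ))).val
  let q : Gamma0 N → Gamma0 (N * 3) := fun γ => ⟨_, div_gen_mem h3 γ⟩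
  let F : Gamma0 N → ZMod 3 := fun γ => w (Additive.ofMul (q γ))
  have hF : ∀ γ δ, F (γ * δ) = F γ + F δ := by
    intro γ δ
    let cδ : Gamma0 (N * 3) := ⟨_, conj_mem h3 (gen N ^ r γ) (q δ).2⟩
    obtain ⟨e, he⟩ : ∃ e : ℕ, r γ + r δ = r (γ * δ) + 3 * e := by
      have hlt := ZMod.val_lt (rho N (γ : SL(2, ℤ)))
      have hlt' := ZMod.val_lt (rho N (δ : SL(2, ℤ)))
      have : r (γ * δ) = (r γ + r δ) % 3 := by
        show (rho N _).val = _
        rw [Subgroup.coe_mul, rho_mul h3 γ.2 δ.2, ZMod.val_add]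
      exact ⟨(r γ + r δ) / 3, by rw [this, Nat.mod_add_div]⟩
    have e1 : q (γ * δ) = q γ * cδ * (⟨_, gen_pow_three_mem h3⟩ : Gamma0 (N * 3)) ^ e := by
      apply Subtype.ext
      have hp : (gen N : SL(2, ℤ)) ^ r γ * (gen N : SL(2, ℤ)) ^ r δ =
          (gen N : SL(2, ℤ)) ^ r (γ * δ) * ((gen N : SL(2, ℤ)) ^ 3) ^ e := by
        rw [← pow_add, he, pow_add, pow_mul]
      simp only [q, cδ, r, Subgroup.coe_mul, Subgroup.coe_inv, SubgroupClass.coe_pow] at hp ⊢
      rw [show ((gen N : SL(2, ℤ)) ^ 3) ^ e = ((gen N : SL(2, ℤ)) ^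
        (rho N ((γ : SL(2, ℤ)) * δ)).val)⁻¹ * ((gen N : SL(2, ℤ)) ^ (rho N (γ : SL(2, ℤ))).val *
          (gen N : SL(2, ℤ)) ^ (rho N (δ : SL(2, ℤ))).val) by rw [hp, inv_mul_cancel_left]]
      have hc : Commute (((gen N : SL(2, ℤ)) ^ (rho N ((γ : SL(2, ℤ)) * δ)).val)⁻¹)
          ((gen N : SL(2, ℤ)) ^ (rho N (γ : SL(2, ℤ))).val *
            (gen N : SL(2, ℤ)) ^ (rho N (δ : SL(2, ℤ))).val) := by
        rw [← pow_add]
        exact ((Commute.refl (gen N : SL(2, ℤ))).pow_pow _ _).inv_left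
      rw [hc.eq]
      group
    show w (Additive.ofMul (q (γ * δ))) = _
    rw [e1, ofMul_mul, ofMul_mul, map_add, map_add, ofMul_pow, map_nsmul, hg3, smul_zero,
      add_zero]
    congr 1
    exact DFunLike.congr_fun (hconj (gen N ^ r γ)) (Additive.ofMul (q δ))
  refine ⟨AddMonoidHom.mk' (fun γ => F (Additive.toMul γ)) fun γ δ => hF _ _,
    AddMonoidHom.ext fun γ => ?_⟩
  obtain ⟨γ, rfl⟩ := Additive.ofMul.surjective γ
  rw [resHom_apply]
  show w (Additive.ofMul (q _)) = _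
  congr 2
  apply Subtype.ext
  simp [q, (mem_gamma0_three_iff h3 (gamma0_mul_le N 3 γ.2)).mp γ.2]

/-- One power of three leaves the level. -/
theorem hasClass_step (h3 : 3 ∣ N) (hs : Admissible l c) (hlN : ∀ i, ¬ l i ∣ N * 3)
    (h : HasClass (N * 3) l c) : HasClass N l c ∨ HasClass N l (twist l c) := by
  have hlN' := not_dvd_of_mul_three hlN
  obtain ⟨c', w, hc', hw, hw0, hinv, hwT⟩ := exists_invariant h3 hs hlN' h
  have hs' : Admissible l c' := by rcases hc' with rfl | rfl; exacts [hs, hs.twist]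
  suffices HasClass N l c' by rcases hc' with rfl | rfl; exacts [Or.inl this, Or.inr this]
  obtain ⟨Ψ, hΨ⟩ := exists_extend h3 hw hinv
  obtain ⟨i₀, -, h31, hne⟩ := hs'.exists_noneis 1 one_ne_zero
  have hi₀ := neZero_of_admissible hs' i₀
  have hres : ∀ i, ∀ _ : NeZero (l i), ∀ φ : Additive (Gamma0 N) →+ ZMod 3,
      resHom (gamma0_mul_le N 3) (heckeOp N (l i) φ) =
        heckeOp (N * 3) (l i) (resHom (gamma0_mul_le N 3) φ) := fun i _ φ =>
    (heckeOp_restrict (dvd_mul_right N 3) (hs'.prime i) (hlN i) φ).symm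
  set b : ZMod 3 := ((l i₀ : ZMod 3) + 1) * (l i₀ : ZMod 3) with hb
  set Ψ' := heckeOp N (l i₀) Ψ - b • Ψ with hΨ'
  have hres' : resHom (gamma0_mul_le N 3) Ψ' = (c' i₀ - b) • w := by
    have e : resHom (gamma0_mul_le N 3) Ψ' =
        resHom (gamma0_mul_le N 3) (heckeOp N (l i₀) Ψ) - b • resHom (gamma0_mul_le N 3) Ψ :=
      AddMonoidHom.ext fun _ => rfl
    rw [e, hres i₀ hi₀, hΨ, hwT i₀ hi₀, sub_smul]
  have hT : ∀ i, ∀ _ : NeZero (l i), heckeOp N (l i) Ψ' = c' i • Ψ' := by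
    intro i hi
    have e : resHom (gamma0_mul_le N 3) (heckeOp N (l i) Ψ - c' i • Ψ) =
        resHom (gamma0_mul_le N 3) (heckeOp N (l i) Ψ) - c' i • resHom (gamma0_mul_le N 3) Ψ :=
      AddMonoidHom.ext fun _ => rfl
    rw [hres i hi, hΨ, hwT i hi, sub_self] at e
    have hD := eq_smul_rhoHom h3 e
    set t := (heckeOp N (l i) Ψ - c' i • Ψ) (Additive.ofMul (gen N))
    have hTi : heckeOp N (l i) Ψ = c' i • Ψ + t • rhoHom h3 := by rw [← hD, add_sub_cancel]
    rw [hΨ', heckeOp_sub', heckeOp_comm (hs'.prime i) (hlN' i) (hs'.prime i₀) (hlN' i₀),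
      heckeOp_smul', hTi, RT.heckeOp_add, heckeOp_smul', heckeOp_smul',
      heckeOp_rhoHom h3 (hs'.prime i₀) (hlN' i₀), ← hb]
    refine AddMonoidHom.ext fun γ => ?_
    simp only [AddMonoidHom.add_apply, AddMonoidHom.sub_apply, AddMonoidHom.smul_apply,
      smul_eq_mul]
    ring
  obtain ⟨i₂, h2, hc2⟩ := hs'.two
  have hi₂ := neZero_of_admissible hs' i₂
  have hell := mem_ellHom_of_eigen (hs'.prime i₂) (hlN' i₂) h2 hc2 (hT i₂ hi₂)
  have hpar := (exists_cohPart_of_eigen hs'.prime hlN' (liftSys c') c' (residue_liftSys c')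
    hs'.nonEisLift hell fun i => hT i (neZero_of_admissible hs' i)).1
  refine ⟨Ψ', hpar, fun h0 => ?_, hT⟩
  rw [h0] at hres'
  have hz : (c' i₀ - b) • w = 0 := hres'.symm.trans (AddMonoidHom.ext fun _ => rfl)
  have hne' : c' i₀ - b ≠ 0 := by
    rw [sub_ne_zero, hb, h31]
    simpa [h31] using hne
  refine hw0 (AddMonoidHom.ext fun γ => ?_)
  exact (mul_eq_zero.mp (DFunLike.congr_fun hz γ)).resolve_left hne'

/-- All but one power of three leaves the level. -/
theorem hasClass_descend (h3 : 3 ∣ N) (hs : Admissible l c) (hlN : ∀ i, ¬ l i ∣ N * 3) (j : ℕ)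
    (h : HasClass (N * 3 ^ j) l c) : HasClass N l c ∨ HasClass N l (twist l c) := by
  induction j generalizing c with
  | zero => left; simpa using h
  | succ j ih =>
    have hN' : N * 3 ^ (j + 1) = N * 3 ^ j * 3 := by rw [pow_succ, mul_assoc]
    simp only [hN'] at h
    have hl' : ∀ i, ¬ l i ∣ N * 3 ^ j * 3 := fun i hd => by
      rcases (hs.prime i).dvd_mul.mp hd with h1 | h1
      · rcases (hs.prime i).dvd_mul.mp h1 with h2 | h2
        · exact hlN i (h2.trans (dvd_mul_right N 3))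
        · exact hlN i (((hs.prime i).dvd_of_dvd_pow h2).trans (dvd_mul_left 3 N))
      · exact hlN i (h1.trans (dvd_mul_left 3 N))
    rcases hasClass_step (h3.trans (dvd_mul_right N _)) hs hl' h with h1 | h1
    · exact ih hs h1
    · rcases ih hs.twist h1 with h2 | h2
      · exact Or.inr h2
      · rw [twist_twist hs] at h2
        exact Or.inl h2

end FLTAgent.LevelThree
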