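import Fermat.Agent.LevelThree.Group
import Fermat.Agent.RT.Coh.Cocycles
import Fermat.Agent.RT.Setting.Dict
import Mathlib.NumberTheory.Padics.RingHoms

/-!
# Eigenclasses modulo three kill elliptic and parabolic elements

At a prime `ℓ ≡ 2 (mod 3)` an element of order three moves every class of the transfer, so an
eigenclass with eigenvalue nonzero at `ℓ` kills it. A class killing the elliptic elements lifts to
`ℤ₃`, where the non-Eisenstein part also kills the parabolic ones.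
-/

set_option autoImplicit false

noncomputable section

namespace FLTAgent.LevelThree

open LevelRaise CongruenceSubgroup IsLocalRing ModularGroup
open scoped MatrixGroups

theorem sum_eq_zero_of_orbit_three {ι A : Type*} [DecidableEq ι] [AddCommGroup A] (σ : ι → ι)
    (f : ι → A) (h3 : ∀ i, σ (σ (σ i)) = i) (hfix : ∀ i, σ i ≠ i)
    (hsum : ∀ i, f i + f (σ i) + f (σ (σ i)) = 0) (s : Finset ι) (hs : ∀ i ∈ s, σ i ∈ s) :
    ∑ i ∈ s, f i = 0 := by
  induction s using Finset.strongInduction with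
  | H s ih =>
    rcases s.eq_empty_or_nonempty with rfl | ⟨i, hi⟩
    · simp
    have h12 : σ i ≠ σ (σ i) := fun h => hfix (σ i) h.symm
    have h02 : i ≠ σ (σ i) := fun h => hfix i (by
      conv_lhs => rw [h]
      exact h3 i)
    set O₃ : Finset ι := {i, σ i, σ (σ i)} with hO
    have hsub : O₃ ⊆ s := by
      simp only [hO, Finset.insert_subset_iff, Finset.singleton_subset_iff]
      exact ⟨hi, hs i hi, hs _ (hs i hi)⟩
    rw [← Finset.sum_sdiff hsub, ih (s \ O₃)
      (Finset.sdiff_ssubset hsub ⟨i, Finset.mem_insert_self _ _⟩) (fun j hj => ?_), zero_add, hO,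
      Finset.sum_insert (by simp [(hfix i).symm, h02]), Finset.sum_insert (by simpa using h12),
      Finset.sum_singleton, ← add_assoc]
    · exact hsum i
    · rw [Finset.mem_sdiff] at hj ⊢
      refine ⟨hs j hj.1, fun h => hj.2 ?_⟩
      simp only [hO, Finset.mem_insert, Finset.mem_singleton] at h ⊢
      rcases h with h | h | h
      · exact Or.inr (Or.inr (by rw [← h, h3]))
      · exact Or.inl (by rw [← h3 j, h, h3])
      · exact Or.inr (Or.inl (by rw [← h3 j, h, h3]))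

theorem no_cube_root {ℓ : ℕ} [Fact ℓ.Prime] (h : ℓ % 3 = 2) (y : ZMod ℓ) :
    y ^ 2 + y + 1 ≠ 0 := by
  intro hy
  have hy0 : y ≠ 0 := fun h0 => by simp [h0] at hy
  have hy3 : y ^ 3 = 1 := by linear_combination (y - 1) * hy
  have hy1 : y ≠ 1 := fun h1 => by
    rw [h1] at hy
    have h' : ((3 : ℕ) : ZMod ℓ) = 0 := by push_cast; linear_combination hy
    rw [ZMod.natCast_eq_zero_iff, Nat.prime_dvd_prime_iff_eq Fact.out Nat.prime_three] at h'
    omega
  have h1 : orderOf y ∣ ℓ - 1 := ZMod.orderOf_dvd_card_sub_one hy0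
  rw [orderOf_eq_prime hy3 hy1] at h1
  omega

/-- An element of cube one is trivial or has trace `-1`. -/
theorem trace_of_cube_eq_one {x : SL(2, ℤ)} (h : x ^ 3 = 1) (h1 : x ≠ 1) :
    matSL x 0 0 + matSL x 1 1 = -1 := by
  have e : matSL x * matSL x * matSL x = 1 := by
    rw [← matSL_mul, ← matSL_mul, ← matSL_one, ← h, pow_succ, pow_two]
  have hd := det_matSL x
  obtain ⟨a, ha⟩ : ∃ a, a = matSL x 0 0 := ⟨_, rfl⟩
  obtain ⟨b, hb⟩ : ∃ b, b = matSL x 0 1 := ⟨_, rfl⟩
  obtain ⟨c, hc⟩ : ∃ c, c = matSL x 1 0 := ⟨_, rfl⟩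
  obtain ⟨d, hd'⟩ : ∃ d, d = matSL x 1 1 := ⟨_, rfl⟩
  have e00 := congrFun (congrFun e 0) 0
  have e01 := congrFun (congrFun e 0) 1
  have e10 := congrFun (congrFun e 1) 0
  have e11 := congrFun (congrFun e 1) 1
  simp [Matrix.mul_apply, Fin.sum_univ_two] at e00 e01 e10 e11
  rw [← ha, ← hb, ← hc, ← hd'] at e00 e01 e10 e11 hd
  rw [← ha, ← hd']
  have k00 : ((a + d) ^ 2 - 1) * a = 1 + (a + d) := by linear_combination e00 + (2 * a + d) * hd
  have k01 : ((a + d) ^ 2 - 1) * b = 0 := by linear_combination e01 + b * hd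
  have k10 : ((a + d) ^ 2 - 1) * c = 0 := by linear_combination e10 + c * hd
  have k11 : ((a + d) ^ 2 - 1) * d = 1 + (a + d) := by linear_combination e11 + (a + 2 * d) * hd
  by_cases ht : (a + d) ^ 2 - 1 = 0
  · rw [ht, zero_mul] at k00
    linarith
  · exfalso
    have hb0 : b = 0 := (mul_eq_zero.mp k01).resolve_left ht
    have hc0 : c = 0 := (mul_eq_zero.mp k10).resolve_left ht
    have had : a = d := mul_left_cancel₀ ht (k00.trans k11.symm)
    rw [hb0, zero_mul, sub_zero] at hd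
    rcases Int.eq_one_or_neg_one_of_mul_eq_one' hd with ⟨ha1, hd1⟩ | ⟨ha1, hd1⟩
    · refine h1 (Subtype.ext ?_)
      show matSL x = 1
      ext i j
      fin_cases i <;> fin_cases j <;> simp [← ha, ← hb, ← hc, ← hd', hb0, hc0, ha1, hd1]
    · rw [ha1, hd1] at k00
      norm_num at k00

variable {N : ℕ} [NeZero N]

/-- An eigenclass with nonzero eigenvalue at a prime `ℓ ≡ 2 (mod 3)` kills the elements of order
three. -/
theorem apply_eq_zero_of_cube {ℓ : ℕ} [NeZero ℓ] (hℓ : ℓ.Prime) (hℓN : ¬ ℓ ∣ N) (hℓ2 : ℓ % 3 = 2)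
    {φ : Additive (Gamma0 N) →+ ZMod 3} {c : ZMod 3} (hc : c ≠ 0)
    (hT : heckeOp N ℓ φ = c • φ) (γ : Gamma0 N) (h : γ ^ 3 = 1) :
    φ (Additive.ofMul γ) = 0 := by
  classical
  rcases eq_or_ne γ 1 with rfl | hne
  · exact map_zero φ
  have : Fact ℓ.Prime := ⟨hℓ⟩
  obtain ⟨σ, δ, hδ⟩ := exists_transfer_tRepZ hℓ hℓN γ
  have hγ3 : (γ : SL(2, ℤ)) * (γ : SL(2, ℤ)) * (γ : SL(2, ℤ)) = 1 := by
    rw [← Subgroup.coe_mul, ← Subgroup.coe_mul, ← pow_two, ← pow_succ, h, Subgroup.coe_one]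
  have hcyc : ∀ i, tRepZ ℓ i =
      matSL ((δ i * δ (σ i) * δ (σ (σ i)) : Gamma0 N) : SL(2, ℤ)) * tRepZ ℓ (σ (σ (σ i))) := by
    intro i
    calc tRepZ ℓ i = tRepZ ℓ i * matSL ((γ : SL(2, ℤ)) * γ * γ) := by
          rw [hγ3, matSL_one, Matrix.mul_one]
      _ = _ := by
          simp only [Subgroup.coe_mul, matSL_mul]
          rw [← Matrix.mul_assoc, ← Matrix.mul_assoc, hδ, Matrix.mul_assoc (matSL (δ i : SL(2, ℤ))),
            hδ, ← Matrix.mul_assoc, Matrix.mul_assoc _ (tRepZ ℓ (σ (σ i))), hδ]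
          simp only [Matrix.mul_assoc]
  have h3 : ∀ i, σ (σ (σ i)) = i := fun i =>
    (distinctFam_tRepZ ℓ hℓ.one_lt _ _ _ (hcyc i)).symm
  have hprod : ∀ i, φ (Additive.ofMul (δ i)) + φ (Additive.ofMul (δ (σ i))) +
      φ (Additive.ofMul (δ (σ (σ i)))) = 0 := fun i => by
    have e := hcyc i
    rw [h3] at e
    have h1 : (δ i * δ (σ i) * δ (σ (σ i)) : Gamma0 N) = 1 := Subtype.ext (Subtype.ext
      (RT.mul_right_cancel_of_det_ne_zero (by rw [det_tRepZ]; exact_mod_cast hℓ.ne_zero)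
        (e.symm.trans (Matrix.one_mul _).symm)))
    rw [← map_add, ← map_add, ← ofMul_mul, ← ofMul_mul, h1, ofMul_one, map_zero]
  have hfix : ∀ i, σ i ≠ i := by
    intro i hi
    have e := hδ i
    rw [hi] at e
    have htr := trace_of_cube_eq_one (x := (γ : SL(2, ℤ))) (by
      rw [← SubgroupClass.coe_pow, h, Subgroup.coe_one]) (fun h1 => hne (Subtype.ext h1))
    have hdet := det_matSL (γ : SL(2, ℤ))
    generalize matSL (δ i : SL(2, ℤ)) = D at e
    generalize matSL (γ : SL(2, ℤ)) = X at e htr hdet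
    have htr' := congrArg (fun z : ℤ => (z : ZMod ℓ)) htr
    have hdet' := congrArg (fun z : ℤ => (z : ZMod ℓ)) hdet
    push_cast at htr' hdet'
    rcases i with _ | j
    · have h10 := congrArg (fun Y => ((Y 1 0 : ℤ) : ZMod ℓ)) e
      simp [tRepZ, Matrix.mul_apply, Fin.sum_univ_two] at h10
      rw [h10, mul_zero, sub_zero] at hdet'
      exact no_cube_root hℓ2 (X 0 0 : ZMod ℓ) (by
        linear_combination ((X 0 0 : ℤ) : ZMod ℓ) * htr' - hdet')
    · have h00 := congrArg (fun Y => ((Y 0 0 : ℤ) : ZMod ℓ)) e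
      have h01 := congrArg (fun Y => ((Y 0 1 : ℤ) : ZMod ℓ)) e
      simp [tRepZ, Matrix.mul_apply, Fin.sum_univ_two] at h00 h01
      rw [← h00] at h01
      exact no_cube_root hℓ2 ((X 0 0 : ZMod ℓ) + j * X 1 0) (by
        linear_combination (((X 0 0 : ℤ) : ZMod ℓ) + j * ((X 1 0 : ℤ) : ZMod ℓ)) * htr' - hdet' -
          ((X 1 0 : ℤ) : ZMod ℓ) * h01)
  have h0 : heckeOp N ℓ φ (Additive.ofMul γ) = 0 := by
    rw [heckeOp_apply hℓ hℓN φ γ hδ]
    exact sum_eq_zero_of_orbit_three σ _ h3 hfix hprod _ fun i _ => Finset.mem_univ _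
  rw [hT, AddMonoidHom.smul_apply, smul_eq_mul] at h0
  exact (mul_eq_zero.mp h0).resolve_left hc

/-- An eigenclass with nonzero eigenvalue at a prime `ℓ ≡ 2 (mod 3)` kills elliptic elements. -/
theorem mem_ellHom_of_eigen {ℓ : ℕ} [NeZero ℓ] (hℓ : ℓ.Prime) (hℓN : ¬ ℓ ∣ N) (hℓ2 : ℓ % 3 = 2)
    {φ : Additive (Gamma0 N) →+ ZMod 3} {c : ZMod 3} (hc : c ≠ 0)
    (hT : heckeOp N ℓ φ = c • φ) : φ ∈ ellHom (Gamma0 N) (ZMod 3) := by
  intro γ hγ
  have h12 : γ ^ 12 = 1 := by
    refine Subtype.ext ?_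
    rw [SubgroupClass.coe_pow, Subgroup.coe_one]
    rcases hγ with hγ | hγ | hγ
    · exact Periods.pow_twelve_eq_one_of_trace_sq_lt hγ
    · rw [hγ, one_pow]
    · rw [hγ]; exact Even.neg_one_pow ⟨6, rfl⟩
  have h4 := apply_eq_zero_of_cube hℓ hℓN hℓ2 hc hT (γ ^ 4) (by rw [← pow_mul]; exact h12)
  rw [ofMul_pow, map_nsmul, nsmul_eq_mul] at h4
  exact (mul_eq_zero.mp h4).resolve_left (by decide)

/-- A homomorphism killing elliptic elements lifts from a residue field. -/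
theorem exists_hom_lift {Γ : Subgroup SL(2, ℤ)} [Γ.FiniteIndex] {R k : Type*} [CommRing R]
    [Field k] (hneg : (-1 : SL(2, ℤ)) ∈ Γ) (h2 : (2 : k) ≠ 0) (f : R →+* k)
    (hf : Function.Surjective f) {φ : Additive Γ →+ k} (hφ : φ ∈ ellHom Γ k) :
    ∃ ψ : Additive Γ →+ R, f.toAddMonoidHom.comp ψ = φ := by
  classical
  have hnegX := neg_one_smul_cos hneg
  have hSS : ∀ x : Cos Γ, S • S • x = x := fun x => by rw [← mul_smul, ← pow_two, S_sq_eq, hnegX]
  obtain ⟨v, hv⟩ := (isCocycle_homCocycle φ).exists_gauge (S * T)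
    fun n x hx => (isEllCocycle_homCocycle hφ).2 _ x hx (isElliptic_pow isElliptic_ST n)
  obtain ⟨a, ha_def⟩ : ∃ a, a = homCocycle φ + cobound v := ⟨_, rfl⟩
  have ha : IsEllCocycle a :=
    ha_def ▸ (isEllCocycle_homCocycle hφ).add (isParCocycle_cobound v).toEll
  have haφ : baseHom a ha.1 = φ := AddMonoidHom.ext fun γ => by
    subst ha_def
    show homCocycle φ ((Additive.toMul γ : Γ) : SL(2, ℤ)) _ + cobound v _ _ = _
    rw [homCocycle_base, cobound, smul_base_of_mem (Additive.toMul γ).2, sub_self, add_zero]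
    rfl
  have haU : ∀ x, a (S * T) x = 0 := fun x => by rw [ha_def]; exact hv x
  have hanti : ∀ x, a S (S • x) + a S x = 0 := fun x => by
    rw [← ha.1, ← pow_two, S_sq_eq]
    exact ha.2 _ x (hnegX x) (Or.inr (Or.inr rfl))
  obtain ⟨lift, hlift⟩ := hf.hasRightInverse
  let ε := Fintype.equivFin (Cos Γ)
  let e₀ : Cos Γ → R := fun x =>
    if ε x < ε (S • x) then lift (a S x) else if ε (S • x) < ε x then -lift (a S (S • x)) else 0
  have he₀anti : ∀ x, e₀ (S • x) + e₀ x = 0 := by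
    intro x
    simp only [e₀, hSS]
    rcases lt_trichotomy (ε x) (ε (S • x)) with h | h | h
    · rw [if_neg h.asymm, if_pos h, if_pos h, neg_add_cancel]
    · simp [h]
    · rw [if_pos h, if_neg h.asymm, if_pos h, add_neg_cancel]
  have he₀ : ∀ x, f (e₀ x) = a S x := by
    intro x
    simp only [e₀]
    rcases lt_trichotomy (ε x) (ε (S • x)) with h | h | h
    · rw [if_pos h, hlift]
    · rw [if_neg h.not_lt, if_neg h.symm.not_lt, map_zero]
      have h' : x = S • x := ε.injective h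
      have h1 := hanti x
      rw [← h', ← two_mul] at h1
      exact ((mul_eq_zero.mp h1).resolve_left h2).symm
    · rw [if_neg h.asymm, if_pos h, map_neg, hlift]
      linear_combination -hanti x
  obtain ⟨b, hb, hbS, hbU, -⟩ := RT.exists_cocycle_of_values hnegX e₀ 0 he₀anti
    (fun _ => by simp)
  refine ⟨baseHom b hb, AddMonoidHom.ext fun γ => ?_⟩
  have hd : IsCocycle fun g x => f (b g x) - a g x := fun g h x => by
    simp only [hb g h x, ha.1 g h x, map_add]; abel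
  have h0 := hd.eq_zero (fun x => by simp only [hbS, he₀, sub_self])
    (fun x => by simp only [hbU, haU, Pi.zero_apply, map_zero, sub_zero])
    ((Additive.toMul γ : Γ) : SL(2, ℤ)) (cosBase Γ)
  rw [← haφ]
  exact sub_eq_zero.mp h0

instance finite_residueField_padicThree : Finite (ResidueField ℤ_[3]) :=
  Finite.of_equiv _ PadicInt.residueField.symm.toEquiv

theorem three_mem_maximalIdeal : ((3 : ℕ) : ℤ_[3]) ∈ maximalIdeal ℤ_[3] :=
  PadicInt.p_nonunit

/-- The reduction of the residue field of `ℤ₃` to `ZMod 3`. -/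
def redThree : ZMod 3 →+* ResidueField ℤ_[3] :=
  RT.resHom three_mem_maximalIdeal

variable {ι : Type} {l : ι → ℕ}

/-- A non-Eisenstein eigenclass killing elliptic elements comes from the part over `ℤ₃`, so it
kills parabolic elements. -/
theorem exists_cohPart_of_eigen (hl : ∀ i, (l i).Prime) (hlN : ∀ i, ¬ l i ∣ N)
    (a : ι → ℤ_[3]) (c : ι → ZMod 3) (hac : ∀ i, residue ℤ_[3] (a i) = redThree (c i))
    (hne : RT.NonEis l a) {φ : Additive (Gamma0 N) →+ ZMod 3}
    (hφ : φ ∈ ellHom (Gamma0 N) (ZMod 3))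
    (hT : ∀ i, haveI : NeZero (l i) := ⟨(hl i).ne_zero⟩
      heckeOp N (l i) φ = c i • φ) :
    φ ∈ parHom (Gamma0 N) (ZMod 3) ∧
      (φ ≠ 0 → RT.cohPart RT.trivChar (one_dvd N) hl a ≠ ⊥) := by
  classical
  set φ₀ := redThree.toAddMonoidHom with hφ₀
  have hk : φ₀.comp φ ∈ ellHom (Gamma0 N) (ResidueField ℤ_[3]) := fun γ hγ => by
    show redThree (φ (Additive.ofMul γ)) = 0
    rw [hφ γ hγ, map_zero]
  have h2 : (2 : ResidueField ℤ_[3]) ≠ 0 := by
    rw [← map_ofNat (residue ℤ_[3]) 2, residue_ne_zero_iff_isUnit]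
    exact RT.isUnit_two three_mem_maximalIdeal (by norm_num)
  obtain ⟨ψ, hψ⟩ := exists_hom_lift (neg_one_mem_gamma0 N) h2 (residue ℤ_[3])
    IsLocalRing.residue_surjective hk
  set Φ : RT.Coh N RT.trivChar ℤ_[3] := (RT.toG0 N).symm ψ with hΦdef
  have hΦ : RT.redG0 ℤ_[3] N Φ = φ₀.comp φ := by
    rw [RT.redG0_def, hΦdef, AddEquiv.apply_symm_apply]; exact hψ
  have := RT.moduleFinite_coh (χ := RT.trivChar) ℤ_[3] ℤ_[3] (one_dvd N)
  set P := RT.cohProj RT.trivChar (one_dvd N) hl a Φ with hPdef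
  have hmem : Φ - P ∈
      maximalIdeal ℤ_[3] ^ 1 • (⊤ : Submodule ℤ_[3] (RT.Coh N RT.trivChar ℤ_[3])) := by
    refine RT.sub_partProj_mem _ a fun i => ⟨1, ?_⟩
    have : NeZero (l i) := ⟨(hl i).ne_zero⟩
    rw [pow_one, pow_one]
    refine RT.mem_smul_top_of_redG0 ?_
    rw [LinearMap.sub_apply, map_sub, RT.redG0_opP (hl i) (hlN i), LinearMap.smul_apply,
      Module.End.one_apply, RT.redG0_smul, hΦ, LevelRaise.map_heckeOp, hT i, sub_eq_zero]
    refine AddMonoidHom.ext fun γ => ?_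
    show redThree (c i * φ γ) = residue ℤ_[3] (a i) * redThree (φ γ)
    rw [map_mul, hac]
  have hPmem := RT.cohProj_mem (χ := RT.trivChar) (one_dvd N) hl a Φ
  have hP : RT.redG0 ℤ_[3] N P = φ₀.comp φ := by
    rw [pow_one] at hmem
    rw [← hΦ, eq_comm, ← sub_eq_zero, ← map_sub]
    exact RT.redG0_eq_zero_of_mem hmem
  refine ⟨fun γ hγ => ?_, fun hφ0 hbot => ?_⟩
  · refine redThree.injective ?_
    rw [map_zero]
    show φ₀.comp φ (Additive.ofMul γ) = 0
    rw [← hP]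
    show residue ℤ_[3] (P (Additive.ofMul ⟨γ, RT.gamma0_le_triv N γ.2⟩)) = 0
    rw [RT.apply_eq_zero_of_mem_cohPart (one_dvd N) hl hne hPmem
      (γ := ⟨γ, RT.gamma0_le_triv N γ.2⟩) hγ, map_zero]
  · rw [hbot, Submodule.mem_bot] at hPmem
    refine hφ0 (AddMonoidHom.ext fun γ => redThree.injective ?_)
    have := DFunLike.congr_fun hP γ
    rw [show P = 0 from hPmem, map_zero] at this
    rw [AddMonoidHom.zero_apply, map_zero]
    exact this.symm

end FLTAgent.LevelThree
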