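import Fermat.Agent.LevelRaise.HeckeOp
import Fermat.Agent.LevelRaise.Operators
import Fermat.Agent.RT.Ihara.Base

/-!
# The normal subgroup `Γ₀(3N)` of index three in `Γ₀(N)` for `3 ∣ N`

`rho` is the character of `Γ₀(N)` with kernel `Γ₀(3N)`. The transfer of `T ℓ` multiplies it by
`ℓ`, so conjugation by `Γ₀(N)` on homomorphisms of `Γ₀(3N)` commutes with `T ℓ` up to that power.
-/

set_option autoImplicit false

noncomputable section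

namespace FLTAgent.LevelThree

open LevelRaise CongruenceSubgroup
open scoped MatrixGroups

variable {N : ℕ}

/-- The lower left entry over `N`, times the upper left entry, modulo three. -/
def rho (N : ℕ) (γ : SL(2, ℤ)) : ZMod 3 :=
  ((matSL γ 1 0 / (N : ℤ) : ℤ) : ZMod 3) * ((matSL γ 0 0 : ℤ) : ZMod 3)

theorem rho_eq [NeZero N] {γ : SL(2, ℤ)} {c : ℤ} (hc : matSL γ 1 0 = N * c) :
    rho N γ = (c : ZMod 3) * ((matSL γ 0 0 : ℤ) : ZMod 3) := by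
  rw [rho, hc, Int.mul_ediv_cancel_left _ (by exact_mod_cast NeZero.ne N)]

theorem zmod3_sq {x : ZMod 3} (hx : x ≠ 0) : x * x = 1 := by
  revert hx; revert x; decide

theorem natCast_three_eq_zero (h3 : 3 ∣ N) : (N : ZMod 3) = 0 :=
  (ZMod.natCast_eq_zero_iff N 3).mpr h3

theorem natCast_prime_ne_zero (h3 : 3 ∣ N) {ℓ : ℕ} (hℓ : ℓ.Prime) (hℓN : ¬ ℓ ∣ N) :
    (ℓ : ZMod 3) ≠ 0 := by
  rw [Ne, ZMod.natCast_eq_zero_iff, Nat.prime_dvd_prime_iff_eq Nat.prime_three hℓ]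
  exact fun h => hℓN (h ▸ h3)

theorem diag_mod_three (h3 : 3 ∣ N) {γ : SL(2, ℤ)} (hγ : γ ∈ Gamma0 N) :
    ((matSL γ 0 0 : ℤ) : ZMod 3) * ((matSL γ 1 1 : ℤ) : ZMod 3) = 1 := by
  obtain ⟨c, hc⟩ := mem_gamma0_iff.mp hγ
  have h := congrArg (fun z : ℤ => (z : ZMod 3)) (det_matSL γ)
  rw [hc] at h
  push_cast at h
  rw [natCast_three_eq_zero h3] at h
  linear_combination h

variable [NeZero N]

theorem rho_mul (h3 : 3 ∣ N) {γ δ : SL(2, ℤ)} (hγ : γ ∈ Gamma0 N) (hδ : δ ∈ Gamma0 N) :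
    rho N (γ * δ) = rho N γ + rho N δ := by
  obtain ⟨c, hc⟩ := mem_gamma0_iff.mp hγ
  obtain ⟨c', hc'⟩ := mem_gamma0_iff.mp hδ
  have e : matSL (γ * δ) 1 0 = N * (c * matSL δ 0 0 + matSL γ 1 1 * c') := by
    rw [matSL_mul, Matrix.mul_apply, Fin.sum_univ_two, hc, hc']; ring
  rw [rho_eq e, rho_eq hc, rho_eq hc', matSL_mul, Matrix.mul_apply, Fin.sum_univ_two, hc']
  push_cast
  rw [natCast_three_eq_zero h3]
  have had := diag_mod_three h3 hγ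
  have hsq : ((matSL δ 0 0 : ℤ) : ZMod 3) * ((matSL δ 0 0 : ℤ) : ZMod 3) = 1 :=
    zmod3_sq fun h => zero_ne_one (by rw [← diag_mod_three h3 hδ, h, zero_mul])
  linear_combination ((c : ZMod 3) * ((matSL γ 0 0 : ℤ) : ZMod 3)) * hsq +
    ((c' : ZMod 3) * ((matSL δ 0 0 : ℤ) : ZMod 3)) * had

/-- The character with kernel `Γ₀(3N)`. -/
def rhoHom (h3 : 3 ∣ N) : Additive (Gamma0 N) →+ ZMod 3 :=
  AddMonoidHom.mk' (fun γ => rho N (Additive.toMul γ : Gamma0 N)) fun γ δ =>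
    rho_mul h3 (Additive.toMul γ).2 (Additive.toMul δ).2

theorem rhoHom_apply (h3 : 3 ∣ N) (γ : Gamma0 N) :
    rhoHom h3 (Additive.ofMul γ) = rho N (γ : SL(2, ℤ)) := rfl

theorem rho_one : rho N (1 : SL(2, ℤ)) = 0 := by
  rw [rho_eq (c := 0) (by simp [matSL]), Int.cast_zero, zero_mul]

/-- Membership of `Γ₀(3N)`. -/
theorem mem_gamma0_three_iff (h3 : 3 ∣ N) {γ : SL(2, ℤ)} (hγ : γ ∈ Gamma0 N) :
    γ ∈ Gamma0 (N * 3) ↔ rho N γ = 0 := by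
  obtain ⟨c, hc⟩ := mem_gamma0_iff.mp hγ
  have ha : ((matSL γ 0 0 : ℤ) : ZMod 3) ≠ 0 := fun h =>
    zero_ne_one (by rw [← diag_mod_three h3 hγ, h, zero_mul])
  rw [rho_eq hc, mem_gamma0_iff, mul_eq_zero, or_iff_left ha,
    ZMod.intCast_zmod_eq_zero_iff_dvd, hc]
  push_cast
  exact mul_dvd_mul_iff_left (by exact_mod_cast NeZero.ne N)

theorem rho_inv (h3 : 3 ∣ N) (g : Gamma0 N) :
    rho N ((g : SL(2, ℤ))⁻¹) = -rho N (g : SL(2, ℤ)) := by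
  have h := rho_mul h3 g.2 (inv_mem g.2)
  rw [mul_inv_cancel, rho_one] at h
  exact eq_neg_of_add_eq_zero_right h.symm

theorem conj_mem (h3 : 3 ∣ N) (g : Gamma0 N) {γ : SL(2, ℤ)} (hγ : γ ∈ Gamma0 (N * 3)) :
    (g : SL(2, ℤ)) * γ * (g : SL(2, ℤ))⁻¹ ∈ Gamma0 (N * 3) := by
  have hγN := gamma0_mul_le N 3 hγ
  rw [mem_gamma0_three_iff h3 (mul_mem (mul_mem g.2 hγN) (inv_mem g.2)),
    rho_mul h3 (mul_mem g.2 hγN) (inv_mem g.2), rho_mul h3 g.2 hγN, rho_inv h3,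
    (mem_gamma0_three_iff h3 hγN).mp hγ, add_zero, add_neg_cancel]

/-- A lower unipotent element on which `rho` is one. -/
def gen (N : ℕ) : Gamma0 N :=
  ⟨slMk 1 0 (N : ℤ) 1 (by ring), mem_gamma0_iff.mpr (by simp)⟩

theorem rho_gen : rho N (gen N : SL(2, ℤ)) = 1 := by
  rw [gen, rho_eq (c := 1) (by simp)]
  simp

theorem rho_pow (h3 : 3 ∣ N) (g : Gamma0 N) (n : ℕ) :
    rho N ((g ^ n : Gamma0 N) : SL(2, ℤ)) = n * rho N (g : SL(2, ℤ)) := by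
  rw [← rhoHom_apply h3, ofMul_pow, map_nsmul, nsmul_eq_mul, rhoHom_apply]

theorem gen_pow_three_mem (h3 : 3 ∣ N) :
    ((gen N ^ 3 : Gamma0 N) : SL(2, ℤ)) ∈ Gamma0 (N * 3) := by
  rw [mem_gamma0_three_iff h3 (gen N ^ 3).2, rho_pow h3, rho_gen, mul_one]
  decide

theorem div_gen_mem (h3 : 3 ∣ N) (γ : Gamma0 N) :
    ((γ * (gen N ^ (rho N (γ : SL(2, ℤ))).val)⁻¹ : Gamma0 N) : SL(2, ℤ)) ∈ Gamma0 (N * 3) := by
  rw [mem_gamma0_three_iff h3 (γ * _).2, Subgroup.coe_mul, Subgroup.coe_inv,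
    rho_mul h3 γ.2 (inv_mem (gen N ^ _).2), rho_inv h3, rho_pow h3, rho_gen, mul_one,
    ZMod.natCast_val, ZMod.cast_id, add_neg_cancel]

section Conj

variable {A : Type*} [AddCommGroup A]

/-- The pullback of a homomorphism of `Γ₀(3N)` by conjugation. -/
def conjAct (h3 : 3 ∣ N) (g : Gamma0 N) (ψ : Additive (Gamma0 (N * 3)) →+ A) :
    Additive (Gamma0 (N * 3)) →+ A :=
  AddMonoidHom.mk' (fun γ => ψ (Additive.ofMul ⟨_, conj_mem h3 g (Additive.toMul γ).2⟩))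
    fun γ δ => by
      rw [← map_add, ← ofMul_mul]
      congr 2
      apply Subtype.ext
      simp only [toMul_add, Subgroup.coe_mul]
      group

theorem conjAct_apply (h3 : 3 ∣ N) (g : Gamma0 N) (ψ : Additive (Gamma0 (N * 3)) →+ A)
    (γ : Gamma0 (N * 3)) :
    conjAct h3 g ψ (Additive.ofMul γ) = ψ (Additive.ofMul ⟨_, conj_mem h3 g γ.2⟩) := rfl

theorem conjAct_conjAct (h3 : 3 ∣ N) (g h : Gamma0 N) (ψ : Additive (Gamma0 (N * 3)) →+ A) :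
    conjAct h3 g (conjAct h3 h ψ) = conjAct h3 (h * g) ψ := by
  refine AddMonoidHom.ext fun γ => ?_
  obtain ⟨γ, rfl⟩ := Additive.ofMul.surjective γ
  rw [conjAct_apply, conjAct_apply, conjAct_apply]
  congr 2
  apply Subtype.ext
  simp only [Subgroup.coe_mul]
  group

/-- Conjugation only depends on `rho`. -/
theorem conjAct_congr (h3 : 3 ∣ N) {g g' : Gamma0 N}
    (h : rho N (g : SL(2, ℤ)) = rho N (g' : SL(2, ℤ))) (ψ : Additive (Gamma0 (N * 3)) →+ A) :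
    conjAct h3 g ψ = conjAct h3 g' ψ := by
  have hx : ((g * g'⁻¹ : Gamma0 N) : SL(2, ℤ)) ∈ Gamma0 (N * 3) := by
    rw [mem_gamma0_three_iff h3 (g * g'⁻¹).2, Subgroup.coe_mul, Subgroup.coe_inv,
      rho_mul h3 g.2 (inv_mem g'.2), rho_inv h3, h, add_neg_cancel]
  refine AddMonoidHom.ext fun γ => ?_
  obtain ⟨γ, rfl⟩ := Additive.ofMul.surjective γ
  let x : Gamma0 (N * 3) := ⟨_, hx⟩
  rw [conjAct_apply, conjAct_apply,
    show (⟨_, conj_mem h3 g γ.2⟩ : Gamma0 (N * 3)) = x * ⟨_, conj_mem h3 g' γ.2⟩ * x⁻¹ from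
      Subtype.ext (by simp only [x, Subgroup.coe_mul, Subgroup.coe_inv]; group),
    ofMul_mul, ofMul_mul, ofMul_inv, map_add, map_add, map_neg]
  abel

/-- Conjugation by the class of `t`. -/
def sig (h3 : 3 ∣ N) (t : ZMod 3) (ψ : Additive (Gamma0 (N * 3)) →+ A) :
    Additive (Gamma0 (N * 3)) →+ A :=
  conjAct h3 (gen N ^ t.val) ψ

theorem conjAct_eq_sig (h3 : 3 ∣ N) (g : Gamma0 N) (ψ : Additive (Gamma0 (N * 3)) →+ A) :
    conjAct h3 g ψ = sig h3 (rho N (g : SL(2, ℤ))) ψ :=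
  conjAct_congr h3 (by rw [rho_pow h3, rho_gen, mul_one, ZMod.natCast_val, ZMod.cast_id]) ψ

theorem sig_sig (h3 : 3 ∣ N) (s t : ZMod 3) (ψ : Additive (Gamma0 (N * 3)) →+ A) :
    sig h3 s (sig h3 t ψ) = sig h3 (t + s) ψ := by
  unfold sig
  rw [conjAct_conjAct]
  refine conjAct_congr h3 ?_ ψ
  rw [Subgroup.coe_mul, rho_mul h3 (gen N ^ t.val).2 (gen N ^ s.val).2, rho_pow h3, rho_pow h3,
    rho_pow h3, rho_gen]
  simp [ZMod.natCast_val, ZMod.cast_id]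

theorem sig_zero (h3 : 3 ∣ N) (ψ : Additive (Gamma0 (N * 3)) →+ A) : sig h3 0 ψ = ψ := by
  refine AddMonoidHom.ext fun γ => ?_
  obtain ⟨γ, rfl⟩ := Additive.ofMul.surjective γ
  rw [sig, conjAct_apply]
  congr 2
  apply Subtype.ext
  simp

theorem sig_add (h3 : 3 ∣ N) (t : ZMod 3) (ψ φ : Additive (Gamma0 (N * 3)) →+ A) :
    sig h3 t (ψ + φ) = sig h3 t ψ + sig h3 t φ := AddMonoidHom.ext fun _ => rfl

theorem sig_sub (h3 : 3 ∣ N) (t : ZMod 3) (ψ φ : Additive (Gamma0 (N * 3)) →+ A) :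
    sig h3 t (ψ - φ) = sig h3 t ψ - sig h3 t φ := AddMonoidHom.ext fun _ => rfl

theorem sig_mem_parHom (h3 : 3 ∣ N) (t : ZMod 3) {ψ : Additive (Gamma0 (N * 3)) →+ A}
    (hψ : ψ ∈ parHom (Gamma0 (N * 3)) A) : sig h3 t ψ ∈ parHom (Gamma0 (N * 3)) A :=
  fun γ hγ => hψ _ (by rwa [trSL_conj])

end Conj

section Transfer

variable {ℓ : ℕ} [NeZero ℓ] {A : Type*} [AddCommGroup A]

omit [NeZero N] [NeZero ℓ] in
theorem transfer_mono {N' : ℕ} (hN : N ∣ N') {γ : SL(2, ℤ)}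
    {σ : Option (ZMod ℓ) → Option (ZMod ℓ)} {δ : Option (ZMod ℓ) → Gamma0 N'}
    (h : IsTransferZ (tRepZ ℓ) γ σ δ) :
    IsTransferZ (tRepZ ℓ) γ σ fun i => (⟨δ i, gamma0_le hN (δ i).2⟩ : Gamma0 N) := h

omit [NeZero ℓ] in
/-- The transfer multiplies `rho` by `ℓ`. -/
theorem rho_transfer (h3 : 3 ∣ N) (hℓ : ℓ.Prime) (hℓN : ¬ ℓ ∣ N) {γ : SL(2, ℤ)}
    (hγ : γ ∈ Gamma0 N) {σ : Option (ZMod ℓ) → Option (ZMod ℓ)}
    {δ : Option (ZMod ℓ) → Gamma0 N} (h : IsTransferZ (tRepZ ℓ) γ σ δ) (i : Option (ZMod ℓ)) :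
    rho N (δ i : SL(2, ℤ)) = (ℓ : ZMod 3) * rho N γ := by
  obtain ⟨f, hf⟩ := mem_gamma0_iff.mp hγ
  obtain ⟨e, he⟩ := mem_gamma0_iff.mp (δ i).2
  have e10 := congrArg (fun X => X 1 0) (h i)
  have e00 := congrArg (fun X => X 0 0) (h i)
  simp only [Matrix.mul_apply, Fin.sum_univ_two, tRepZ_apply_one_zero, zero_mul, zero_add,
    mul_zero, add_zero, hf, he] at e10 e00
  have hd := det_tRepZ ℓ i
  rw [Matrix.det_fin_two, tRepZ_apply_one_zero, mul_zero, sub_zero] at hd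
  have hd' := det_tRepZ ℓ (σ i)
  rw [Matrix.det_fin_two, tRepZ_apply_one_zero, mul_zero, sub_zero] at hd'
  set x' : ZMod 3 := ((tRepZ ℓ (σ i) 0 0 : ℤ) : ZMod 3) with hx'
  have hx0 : x' ≠ 0 := fun h0 => natCast_prime_ne_zero h3 hℓ hℓN (by
    have := congrArg (fun z : ℤ => (z : ZMod 3)) hd'
    push_cast at this
    rw [← this, ← hx', h0, zero_mul])
  have a1 : (e : ZMod 3) * x' = ((tRepZ ℓ i 1 1 : ℤ) : ZMod 3) * f := by
    have h1 : (N : ℤ) * (e * tRepZ ℓ (σ i) 0 0) = N * (tRepZ ℓ i 1 1 * f) := by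
      linear_combination -e10
    have := congrArg (fun z : ℤ => (z : ZMod 3))
      (mul_left_cancel₀ (by exact_mod_cast NeZero.ne N) h1)
    push_cast at this
    exact this
  have a2 : ((tRepZ ℓ i 0 0 : ℤ) : ZMod 3) * (matSL γ 0 0 : ℤ) =
      ((matSL (δ i : SL(2, ℤ)) 0 0 : ℤ) : ZMod 3) * x' := by
    have := congrArg (fun z : ℤ => (z : ZMod 3)) e00
    push_cast at this
    rw [natCast_three_eq_zero h3] at this
    simpa using this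
  rw [rho_eq hf, rho_eq he]
  have hd2 := congrArg (fun z : ℤ => (z : ZMod 3)) hd
  push_cast at hd2
  have hsq := zmod3_sq hx0
  linear_combination (((matSL (δ i : SL(2, ℤ)) 0 0 : ℤ) : ZMod 3) * x') * a1 -
    (((tRepZ ℓ i 1 1 : ℤ) : ZMod 3) * f) * a2 +
    ((f : ZMod 3) * ((matSL γ 0 0 : ℤ) : ZMod 3)) * hd2 -
    ((e : ZMod 3) * ((matSL (δ i : SL(2, ℤ)) 0 0 : ℤ) : ZMod 3)) * hsq

/-- `T ℓ` on `rho`. -/
theorem heckeOp_rhoHom (h3 : 3 ∣ N) (hℓ : ℓ.Prime) (hℓN : ¬ ℓ ∣ N) :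
    heckeOp N ℓ (rhoHom h3) = (((ℓ : ZMod 3) + 1) * (ℓ : ZMod 3)) • rhoHom h3 := by
  refine AddMonoidHom.ext fun γ => ?_
  obtain ⟨γ, rfl⟩ := Additive.ofMul.surjective γ
  obtain ⟨σ, δ, h⟩ := exists_transfer_tRepZ hℓ hℓN γ
  rw [heckeOp_apply hℓ hℓN _ γ h, AddMonoidHom.smul_apply, smul_eq_mul]
  simp only [rhoHom_apply, rho_transfer h3 hℓ hℓN γ.2 h, Finset.sum_const, Finset.card_univ,
    Fintype.card_option, ZMod.card, nsmul_eq_mul]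
  push_cast
  ring

/-- Restriction commutes with `T ℓ`. -/
theorem heckeOp_restrict {N' : ℕ} [NeZero N'] (hN : N ∣ N') (hℓ : ℓ.Prime) (hℓN' : ¬ ℓ ∣ N')
    (φ : Additive (Gamma0 N) →+ A) :
    heckeOp N' ℓ (resHom (gamma0_le hN) φ) = resHom (gamma0_le hN) (heckeOp N ℓ φ) := by
  refine AddMonoidHom.ext fun γ => ?_
  obtain ⟨γ, rfl⟩ := Additive.ofMul.surjective γ
  obtain ⟨σ, δ, h⟩ := exists_transfer_tRepZ hℓ hℓN' γ
  rw [heckeOp_apply hℓ hℓN' _ γ h, resHom_apply,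
    heckeOp_apply hℓ (fun hd => hℓN' (hd.trans hN)) φ ⟨γ, gamma0_le hN γ.2⟩ (transfer_mono hN h)]
  rfl

omit [NeZero N] [NeZero ℓ] in
theorem not_dvd_mul_three (h3 : 3 ∣ N) (hℓ : ℓ.Prime) (hℓN : ¬ ℓ ∣ N) : ¬ ℓ ∣ N * 3 := fun h =>
  (hℓ.dvd_mul.mp h).elim hℓN fun h' => hℓN (h'.trans h3)

/-- Conjugation and `T ℓ`. -/
theorem heckeOp_sig (h3 : 3 ∣ N) (hℓ : ℓ.Prime) (hℓN : ¬ ℓ ∣ N) (t : ZMod 3)
    (ψ : Additive (Gamma0 (N * 3)) →+ A) :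
    sig h3 t (heckeOp (N * 3) ℓ ψ) = heckeOp (N * 3) ℓ (sig h3 ((ℓ : ZMod 3) * t) ψ) := by
  classical
  have hℓ3 := not_dvd_mul_three h3 hℓ hℓN
  set g := gen N ^ t.val with hg
  have hgt : rho N (g : SL(2, ℤ)) = t := by
    rw [hg, rho_pow h3, rho_gen, mul_one, ZMod.natCast_val, ZMod.cast_id]
  obtain ⟨π, ε, hε⟩ := exists_transfer_tRepZ hℓ hℓN g
  set H := gen N ^ ((ℓ : ZMod 3) * t).val with hH
  have hεH : ∀ i, ((ε i * H⁻¹ : Gamma0 N) : SL(2, ℤ)) ∈ Gamma0 (N * 3) := fun i => by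
    rw [mem_gamma0_three_iff h3 (ε i * H⁻¹).2, Subgroup.coe_mul, Subgroup.coe_inv,
      rho_mul h3 (ε i).2 (inv_mem H.2), rho_inv h3, rho_transfer h3 hℓ hℓN g.2 hε, hgt, hH,
      rho_pow h3, rho_gen, mul_one, ZMod.natCast_val, ZMod.cast_id, add_neg_cancel]
  let x : Option (ZMod ℓ) → Gamma0 (N * 3) := fun i => ⟨_, hεH i⟩
  refine AddMonoidHom.ext fun γ => ?_
  obtain ⟨γ, rfl⟩ := Additive.ofMul.surjective γ
  let γ' : Gamma0 (N * 3) := ⟨_, conj_mem h3 g γ.2⟩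
  obtain ⟨σ, δ, hδ⟩ := exists_transfer_tRepZ hℓ hℓ3 γ
  obtain ⟨σ', δ', hδ'⟩ := exists_transfer_tRepZ hℓ hℓ3 γ'
  rw [sig, conjAct_apply, heckeOp_apply hℓ hℓ3 _ _ hδ', heckeOp_apply hℓ hℓ3 _ γ hδ]
  have hdist := distinctFam_tRepZ ℓ hℓ.one_lt
  have key : ∀ i, π (σ' i) = σ (π i) ∧
      (δ' i : SL(2, ℤ)) * (ε (σ' i) : SL(2, ℤ)) = (ε i : SL(2, ℤ)) * (δ (π i) : SL(2, ℤ)) := by
    intro i
    have e : matSL ((δ' i : SL(2, ℤ)) * (ε (σ' i) : SL(2, ℤ))) * tRepZ ℓ (π (σ' i)) =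
        matSL ((ε i : SL(2, ℤ)) * (δ (π i) : SL(2, ℤ))) * tRepZ ℓ (σ (π i)) := by
      rw [matSL_mul, Matrix.mul_assoc, ← hε, ← Matrix.mul_assoc, ← hδ', Matrix.mul_assoc,
        ← matSL_mul, show (γ' : SL(2, ℤ)) * (g : SL(2, ℤ)) = (g : SL(2, ℤ)) * γ by
          simp [γ', mul_assoc], matSL_mul, ← Matrix.mul_assoc, hε, Matrix.mul_assoc, hδ,
        ← Matrix.mul_assoc, ← matSL_mul]
    have hij : π (σ' i) = σ (π i) := hdist _ _
      (((δ' i : SL(2, ℤ)) * (ε (σ' i) : SL(2, ℤ)))⁻¹ *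
        ((ε i : SL(2, ℤ)) * (δ (π i) : SL(2, ℤ)))) (by
      have h2 := congrArg (fun X => matSL ((δ' i : SL(2, ℤ)) * (ε (σ' i) : SL(2, ℤ)))⁻¹ * X) e
      simp only [matSL_inv_mul_cancel] at h2
      rw [h2, ← Matrix.mul_assoc, ← matSL_mul])
    refine ⟨hij, ?_⟩
    rw [hij] at e
    exact Subtype.ext (RT.mul_right_cancel_of_det_ne_zero
      (by rw [det_tRepZ]; exact_mod_cast hℓ.ne_zero) e)
  have hval : ∀ i, ψ (Additive.ofMul (δ' i)) = ψ (Additive.ofMul (x i)) +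
      sig h3 ((ℓ : ZMod 3) * t) ψ (Additive.ofMul (δ (π i))) - ψ (Additive.ofMul (x (σ' i))) := by
    intro i
    rw [sig, ← hH, conjAct_apply,
      show δ' i = x i * ⟨_, conj_mem h3 H (δ (π i)).2⟩ * (x (σ' i))⁻¹ from Subtype.ext (by
        simp only [x, Subgroup.coe_mul, Subgroup.coe_inv]
        rw [eq_comm, mul_inv_eq_iff_eq_mul, ← mul_assoc (δ' i : SL(2, ℤ)), (key i).2]
        group),
      ofMul_mul, ofMul_mul, ofMul_inv, map_add, map_add, map_neg, sub_eq_add_neg]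
  let σe : Equiv.Perm (Option (ZMod ℓ)) :=
    Equiv.ofBijective σ' (Finite.injective_iff_bijective.mp (hdist.injective hδ'))
  let πe : Equiv.Perm (Option (ZMod ℓ)) :=
    Equiv.ofBijective π (Finite.injective_iff_bijective.mp (hdist.injective hε))
  simp only [hval, Finset.sum_sub_distrib, Finset.sum_add_distrib]
  rw [show ∑ i, ψ (Additive.ofMul (x (σ' i))) = ∑ i, ψ (Additive.ofMul (x i)) from
      Equiv.sum_comp σe (fun i => ψ (Additive.ofMul (x i))),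
    show ∑ i, sig h3 ((ℓ : ZMod 3) * t) ψ (Additive.ofMul (δ (π i))) =
      ∑ i, sig h3 ((ℓ : ZMod 3) * t) ψ (Additive.ofMul (δ i)) from
      Equiv.sum_comp πe (fun i => sig h3 ((ℓ : ZMod 3) * t) ψ (Additive.ofMul (δ i)))]
  abel

end Transfer

end FLTAgent.LevelThree
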