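import Fermat.Agent.LevelLower.RepLemma

/-!
# A module killed by the characteristic polynomials contains the plane

If `ρ` spans all matrices and `σ g` is killed by the characteristic polynomial of `ρ g` for every
`g`, then the plane of `ρ` maps injectively and equivariantly into the module.
-/

set_option autoImplicit false

noncomputable section

namespace FLTAgent.LevelThree

open Matrix LevelLower

variable {K : Type*} [Field K] {G : Type*} [Group G] {ρ : G →* Matrix (Fin 2) (Fin 2) K}
  {V : Type*} [AddCommGroup V] [Module K V] {σ : G →* Module.End K V}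

/-- The matrix with first column `v`. -/
def colMat (v : Fin 2 → K) : Matrix (Fin 2) (Fin 2) K := !![v 0, 0; v 1, 0]

theorem colMat_mulVec (X : Matrix (Fin 2) (Fin 2) K) (v : Fin 2 → K) :
    colMat (X *ᵥ v) = X * colMat v := by
  ext i j
  fin_cases i <;> fin_cases j <;>
    simp [colMat, Matrix.mul_apply, Matrix.mulVec, dotProduct, Fin.sum_univ_two]

theorem colMat_add (v w : Fin 2 → K) : colMat (v + w) = colMat v + colMat w := by
  ext i j
  fin_cases i <;> fin_cases j <;> simp [colMat]

theorem colMat_smul (c : K) (v : Fin 2 → K) : colMat (c • v) = c • colMat v := by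
  ext i j
  fin_cases i <;> fin_cases j <;> simp [colMat]

/-- The plane of `ρ` embeds equivariantly. -/
theorem exists_plane_of_killedBy (hspan : Submodule.span K (Set.range ρ) = ⊤) (h2 : (2 : K) ≠ 0)
    [Nontrivial V] (hσ : KilledBy ρ σ) :
    ∃ f : (Fin 2 → K) →ₗ[K] V, Function.Injective f ∧
      ∀ g v, f (ρ g *ᵥ v) = σ g (f v) := by
  classical
  let P : MonoidAlgebra K G →ₐ[K] Matrix (Fin 2) (Fin 2) K := MonoidAlgebra.lift K _ G ρ
  let Q : MonoidAlgebra K G →ₐ[K] Module.End K V := MonoidAlgebra.lift K _ G σ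
  let Qs : MonoidAlgebra K G → Module.End K V := fun z => (P z).trace • 1 - Q z
  have hP : ∀ g, P (MonoidAlgebra.of K G g) = ρ g := fun g => by simp [P]
  have hQ : ∀ g, Q (MonoidAlgebra.of K G g) = σ g := fun g => by simp [Q]
  have hs_add : ∀ a b, Qs (a + b) = Qs a + Qs b := fun a b => by
    simp only [Qs, map_add, trace_add, add_smul]; abel
  have hs_smul : ∀ (c : K) a, Qs (c • a) = c • Qs a := fun c a => by
    simp only [Qs, map_smul, trace_smul, smul_sub, smul_eq_mul, smul_smul]
  have hs_of : ∀ g, Qs (MonoidAlgebra.of K G g) = (ρ g).det • σ g⁻¹ := fun g => by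
    refine LinearMap.ext fun w => ?_
    have h := hσ g (σ g⁻¹ w)
    have e : σ g (σ g⁻¹ w) = w := by
      rw [← Module.End.mul_apply, ← map_mul, mul_inv_cancel, map_one, Module.End.one_apply]
    rw [e] at h
    simp only [Qs, hP, hQ, LinearMap.sub_apply, LinearMap.smul_apply, Module.End.one_apply]
    rw [← sub_eq_zero, ← neg_eq_zero, ← h]
    abel
  have hanti : ∀ a b, Qs (a * b) = Qs b * Qs a := by
    intro a b
    induction a using MonoidAlgebra.induction_on with
    | of g =>
      induction b using MonoidAlgebra.induction_on with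
      | of g' =>
        rw [← map_mul, hs_of, hs_of, hs_of, map_mul, det_mul, _root_.mul_inv_rev, map_mul,
          smul_mul_smul_comm, mul_comm ((ρ g').det)]
      | add x y hx hy => rw [mul_add, hs_add, hs_add, hx, hy, add_mul]
      | smul c x hx => rw [mul_smul_comm, hs_smul, hs_smul, hx, smul_mul_assoc]
    | add x y hx hy => rw [add_mul, hs_add, hs_add, hx, hy, mul_add]
    | smul c x hx => rw [smul_mul_assoc, hs_smul, hs_smul, hx, mul_smul_comm]
  have hsurj : ∀ m, ∃ z, P z = m := fun m => by
    have h : m ∈ Submodule.span K (Set.range ρ) := hspan ▸ Submodule.mem_top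
    refine Submodule.span_le (p := LinearMap.range P.toLinearMap).2 ?_ h
    rintro _ ⟨g, rfl⟩
    exact ⟨_, hP g⟩
  -- the kernel acts through elements killing all commutators
  have hker : ∀ z₀, P z₀ = 0 → Q z₀ = 0 := by
    have hneg : ∀ z₀, P z₀ = 0 → Qs z₀ = -Q z₀ := fun z₀ h => by
      simp only [Qs, h, trace_zero, zero_smul, zero_sub]
    have hA : ∀ z₀, P z₀ = 0 → ∀ z, Q z * Q z₀ = Q z₀ * Qs z := fun z₀ h z => by
      have h1 := hanti z z₀
      rw [hneg _ (by rw [map_mul, h, mul_zero]), hneg _ h, map_mul, neg_mul, neg_inj] at h1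
      exact h1
    have hB : ∀ z₀, P z₀ = 0 → ∀ z, Q z₀ * Q z = Qs z * Q z₀ := fun z₀ h z => by
      have h1 := hanti z₀ z
      rw [hneg _ (by rw [map_mul, h, zero_mul]), hneg _ h, map_mul, mul_neg, neg_inj] at h1
      exact h1
    have hcomm : ∀ z₀, P z₀ = 0 → ∀ a b, Q z₀ * Q (a * b - b * a) = 0 := fun z₀ h a b => by
      have h1 : ∀ a b, Q z₀ * (Q a * Q b) = Qs a * Qs b * Q z₀ := fun a b => by
        rw [← mul_assoc, hB _ h, mul_assoc, hB _ h, ← mul_assoc]
      have h2 : ∀ a b, Q z₀ * Q (a * b) = Qs b * Qs a * Q z₀ := fun a b => by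
        rw [hB _ h, hanti]
      rw [map_sub, mul_sub, h2 a b, map_mul, h1 b a, sub_self]
    obtain ⟨a, ha⟩ := hsurj !![0, 1; 0, 0]
    obtain ⟨b, hb⟩ := hsurj !![0, 0; 1, 0]
    set c := a * b - b * a with hcdef
    have hc : P (c * c - 1) = 0 := by
      rw [map_sub, map_mul, map_one, hcdef, map_sub, map_mul, map_mul, ha, hb]
      ext i j
      fin_cases i <;> fin_cases j <;> simp [Matrix.mul_apply]
    have hkill : ∀ z₀, P z₀ = 0 → Q z₀ = -(Q z₀ * Q (c * c - 1)) := fun z₀ h => by
      rw [map_sub, mul_sub, map_one, mul_one, map_mul, ← mul_assoc, hcomm _ h, zero_mul, zero_sub,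
        neg_neg]
    have h0 : Q (c * c - 1) = 0 := by
      have h1 := hA _ hc (c * c - 1)
      rw [hneg _ hc, mul_neg] at h1
      have h3 : Q (c * c - 1) * Q (c * c - 1) = 0 := by
        refine LinearMap.ext fun w => ?_
        have h4 : (2 : K) • (Q (c * c - 1) * Q (c * c - 1)) w = 0 := by
          rw [two_smul]
          nth_rewrite 2 [h1]
          simp
        exact (smul_eq_zero.mp h4).resolve_left h2
      rw [hkill _ hc, h3, neg_zero]
    intro z₀ h
    rw [hkill _ h, h0, mul_zero, neg_zero]
  -- the module of the algebra of matrices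
  let pre : Matrix (Fin 2) (Fin 2) K → MonoidAlgebra K G := fun m => (hsurj m).choose
  have hpre : ∀ m, P (pre m) = m := fun m => (hsurj m).choose_spec
  let φ : Matrix (Fin 2) (Fin 2) K → Module.End K V := fun m => Q (pre m)
  have hφ : ∀ z, φ (P z) = Q z := fun z => by
    rw [← sub_eq_zero, ← map_sub]
    exact hker _ (by rw [map_sub, hpre, sub_self])
  have hφ_mul : ∀ x y, φ (x * y) = φ x * φ y := fun x y => by
    rw [← map_mul Q, ← hφ, map_mul, hpre, hpre]
  have hφ_add : ∀ x y, φ (x + y) = φ x + φ y := fun x y => by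
    rw [← map_add Q, ← hφ, map_add, hpre, hpre]
  have hφ_smul : ∀ (r : K) x, φ (r • x) = r • φ x := fun r x => by
    rw [← map_smul Q, ← hφ, map_smul, hpre]
  have hφ_one : φ 1 = 1 := by rw [← map_one P, hφ, map_one]
  have hE : φ !![1, 0; 0, 0] ≠ 0 := fun h => by
    have e : (1 : Matrix (Fin 2) (Fin 2) K) =
        !![1, 0; 0, 0] + !![0, 0; 1, 0] * !![1, 0; 0, 0] * !![0, 1; 0, 0] := by
      ext i j
      fin_cases i <;> fin_cases j <;> simp [Matrix.mul_apply]
    have h1 := hφ_one
    rw [e, hφ_add, hφ_mul, hφ_mul, h, mul_zero, zero_mul, add_zero] at h1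
    exact zero_ne_one h1
  obtain ⟨w, hw⟩ : ∃ w, φ !![1, 0; 0, 0] w ≠ 0 := by
    by_contra! h
    exact hE (LinearMap.ext h)
  refine ⟨{ toFun := fun v => φ (colMat v) w
            map_add' := fun v v' => by rw [colMat_add, hφ_add, LinearMap.add_apply]
            map_smul' := fun r v => by
              rw [colMat_smul, hφ_smul, LinearMap.smul_apply, RingHom.id_apply] }, ?_, ?_⟩
  · rw [← LinearMap.ker_eq_bot, LinearMap.ker_eq_bot']
    intro v hv
    change φ (colMat v) w = 0 at hv
    have key : ∀ (x : Matrix (Fin 2) (Fin 2) K) (r : K), x * colMat v = r • !![1, 0; 0, 0] → r = 0 :=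
      fun x r hx => by
        have h1 := congrArg (fun T => T w) (congrArg φ hx)
        simp only [hφ_mul, hφ_smul, Module.End.mul_apply, LinearMap.smul_apply, hv, map_zero] at h1
        exact (smul_eq_zero.mp h1.symm).resolve_right hw
    funext i
    fin_cases i
    · refine key !![1, 0; 0, 0] (v 0) ?_
      ext i j
      fin_cases i <;> fin_cases j <;> simp [colMat, Matrix.mul_apply]
    · refine key !![0, 1; 0, 0] (v 1) ?_
      ext i j
      fin_cases i <;> fin_cases j <;> simp [colMat, Matrix.mul_apply]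
  · intro g v
    change φ (colMat (ρ g *ᵥ v)) w = σ g (φ (colMat v) w)
    rw [colMat_mulVec, hφ_mul, ← hP g, hφ, hQ, Module.End.mul_apply]

end FLTAgent.LevelThree
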