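import Fermat.Agent.LevelThree.Plane
import Fermat.Agent.LevelThree.Span

/-!
# The twisted plane at three: no toric action, no model
-/

set_option autoImplicit false

noncomputable section

namespace FLTAgent.LevelThree

open Matrix WeierstrassCurve FLTAgent.FlatModel IsLocalRing
open scoped WeierstrassCurve.Affine

local notation "Qbar" => AlgebraicClosure ℚ
local notation "Γℚ" => AlgebraicClosure ℚ ≃ₐ[ℚ] AlgebraicClosure ℚ

variable {W : WeierstrassCurve ℤ} (hΔ : W.Δ ≠ 0)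

/-- The plane as points. -/
def pt : (Fin 2 → ZMod 3) ≃ₗ[ZMod 3] Reduction.TorsQ W 3 :=
  (Carayol.resBasis (LevelDrop.torsRep hΔ 3)).equivFun.symm

theorem pt_mulVec (σ : Γℚ) (v : Fin 2 → ZMod 3) :
    pt hΔ (LevelLower.Endgame.torsMat hΔ 3 σ *ᵥ v) = σ • pt hΔ v := by
  set b := Carayol.resBasis (LevelDrop.torsRep hΔ 3) with hb
  show b.equivFun.symm _ = (LevelDrop.torsRep hΔ 3).ρ σ (b.equivFun.symm v)
  apply b.equivFun.injective
  rw [LinearEquiv.apply_symm_apply, Module.Basis.equivFun_apply]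
  conv_lhs => rw [← LinearEquiv.apply_symm_apply b.equivFun v, Module.Basis.equivFun_apply]
  exact LinearMap.toMatrix_mulVec_repr b b _ _

theorem det_torsMat_inertia (σ : Γℚ) {a : ℕ} (ha : ∀ μ : Qbar, μ ^ 3 = 1 → σ μ = μ ^ a) :
    (LevelLower.Endgame.torsMat hΔ 3 σ).det = (a : ZMod 3) := by
  rw [← RTIrr.det_torsMat_of_pow hΔ 3 σ a ha, RTIrr.torsMat_eq, LinearMap.det_toMatrix]
  exact LinearMap.det_toMatrix (Carayol.resBasis (LevelDrop.torsRep hΔ 3)) _

/-- The tame sign and the determinant. -/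
theorem pow_four_and_det {π : Qbar} (hπ : π ^ 8 = -3) (σ : Γℚ) :
    ((σ π / π) ^ 4 = 1 ∧ (LevelLower.Endgame.torsMat hΔ 3 σ).det = 1) ∨
      ((σ π / π) ^ 4 = -1 ∧ (LevelLower.Endgame.torsMat hΔ 3 σ).det = -1) := by
  have hπ0 : π ≠ 0 := fun h => by
    rw [h, zero_pow (by norm_num)] at hπ
    exact (by norm_num : (-3 : Qbar) ≠ 0) hπ.symm
  set lam := π ^ 4 with hlam
  have hsq : σ lam * σ lam = lam * lam := by
    rw [← map_mul, hlam, ← pow_add, hπ]; simp [map_ofNat]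
  set ζ := (-1 + lam) / 2 with hζ
  have hl2 : lam * lam = -3 := by rw [hlam, ← pow_add, hπ]
  have hroots : ∀ μ : Qbar, μ ^ 3 = 1 → μ = 1 ∨ μ = ζ ∨ μ = (-1 - lam) / 2 := fun μ hμ => by
    have h : (μ - 1) * ((μ - ζ) * (μ - (-1 - lam) / 2)) = 0 := by
      rw [hζ]
      linear_combination hμ - ((μ - 1) / 4) * hl2
    simpa [mul_eq_zero, sub_eq_zero] using h
  rcases mul_self_eq_mul_self_iff.1 hsq with h | h
  · refine Or.inl ⟨by rw [div_pow, ← map_pow, ← hlam, h, div_self (pow_ne_zero 4 hπ0)], ?_⟩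
    rw [det_torsMat_inertia hΔ σ (a := 1) fun μ hμ => ?_, Nat.cast_one]
    rcases hroots μ hμ with rfl | rfl | rfl <;> simp [hζ, h, map_ofNat]
  · refine Or.inr ⟨by
      rw [div_pow, ← map_pow, ← hlam, h, neg_div, div_self (pow_ne_zero 4 hπ0)], ?_⟩
    rw [det_torsMat_inertia hΔ σ (a := 2) fun μ hμ => ?_]
    · rfl
    rcases hroots μ hμ with rfl | rfl | rfl
    · simp
    · rw [hζ, map_div₀, map_add, map_neg, map_one, map_ofNat, h]
      linear_combination (-(1 : Qbar) / 4) * hl2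
    · rw [map_div₀, map_sub, map_neg, map_one, map_ofNat, h]
      linear_combination (-(1 : Qbar) / 4) * hl2

/-- Some inertia element has sign `-1`. -/
theorem exists_sign_neg {A : ValuationSubring Qbar} (hA : A.LiesOverPrime 3) {π : Qbar}
    (hπ : π ^ 8 = -3) : ∃ σ ∈ A.inertiaSubgroupIn ℚ, (σ π / π) ^ 4 = -1 := by
  by_contra! hall
  have hI := isUnramifiedBase_inertia Nat.prime_three hA
  have hπ0 : π ≠ 0 := fun h => by
    rw [h, zero_pow (by norm_num)] at hπ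
    exact (by norm_num : (-3 : Qbar) ≠ 0) hπ.symm
  have hfix : ∀ τ ∈ inertiaRing A, τ (π ^ 4) = π ^ 4 := by
    rintro _ ⟨σ, hσ, rfl⟩
    show σ (π ^ 4) = π ^ 4
    have hsq : σ (π ^ 4) * σ (π ^ 4) = π ^ 4 * π ^ 4 := by
      rw [← map_mul, ← pow_add, hπ]; simp [map_ofNat]
    refine (mul_self_eq_mul_self_iff.1 hsq).resolve_right fun h => hall σ hσ ?_
    rw [div_pow, ← map_pow, h, neg_div, div_self (pow_ne_zero 4 hπ0)]
  set t := A.valuation ((3 : ℕ) : Qbar) with ht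
  have hsq : A.valuation (π ^ 4) * A.valuation (π ^ 4) = t := by
    rw [← map_mul, ← pow_add, hπ, Valuation.map_neg, ht, Nat.cast_ofNat]
  have hlt : A.valuation (π ^ 4) < 1 := by
    by_contra h
    rw [not_lt] at h
    have := one_le_mul h h
    rw [hsq] at this
    exact this.not_gt hI.natCast_lt
  have h1 := hI.le_natCast _ hfix hlt
  have h2 : A.valuation (π ^ 4) * A.valuation (π ^ 4) < A.valuation (π ^ 4) :=
    mul_lt_of_lt_one_left (zero_lt_iff.2 ((map_ne_zero _).2 (pow_ne_zero 4 hπ0))) hlt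
  rw [hsq] at h2
  exact h1.not_gt h2

theorem det_mul_self (σ : Γℚ) :
    (LevelLower.Endgame.torsMat hΔ 3 σ).det * (LevelLower.Endgame.torsMat hΔ 3 σ).det = 1 := by
  have h := LevelLower.det_ne_zero (LevelLower.Endgame.torsMat hΔ 3) σ
  exact (show ∀ z : ZMod 3, z ≠ 0 → z * z = 1 by decide) _ h

local notation "r" => LevelLower.Endgame.torsMat hΔ 3
local notation "r'" => detTwist (LevelLower.Endgame.torsMat hΔ 3)

theorem detTwist_mulVec (σ : Γℚ) (v : Fin 2 → ZMod 3) : r' σ *ᵥ v = (r σ).det • (r σ *ᵥ v) :=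
  Matrix.smul_mulVec _ _ v

variable {A : ValuationSubring Qbar}

/-- The shape of `W[3]` at three. -/
theorem plane_cases (hA : A.LiesOverPrime 3) (hsemi : W.IsSemistableModel)
    (hns : (¬ (3 : ℤ) ∣ W.Δ ∧ (3 : ℤ) ∣ W.apOfModel 3) ∨
      ((3 : ℤ) ∣ W.Δ ∧ ¬ 3 ∣ padicValInt 3 W.Δ)) :
    ((¬ (3 : ℤ) ∣ W.Δ ∧ (3 : ℤ) ∣ W.apOfModel 3) ∧
      ∀ v, v ≠ 0 → ∃ σ ∈ A.inertiaSubgroupIn ℚ, r' σ *ᵥ v ∉ Submodule.span (ZMod 3) {v}) ∨
    ∃ v₁, v₁ ≠ 0 ∧ (∀ σ ∈ A.inertiaSubgroupIn ℚ, r' σ *ᵥ v₁ = v₁) ∧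
      (∀ σ ∈ A.inertiaSubgroupIn ℚ, ∀ v,
        r' σ *ᵥ v - (r σ).det • v ∈ Submodule.span (ZMod 3) {v₁}) ∧
      ∀ v, v ∉ Submodule.span (ZMod 3) {v₁} →
        ∃ σ ∈ A.inertiaSubgroupIn ℚ, r' σ *ᵥ v ∉ Submodule.span (ZMod 3) {v} := by
  have hspan : ∀ {σ : Γℚ} {v}, r' σ *ᵥ v ∈ Submodule.span (ZMod 3) {v} →
      r σ *ᵥ v ∈ Submodule.span (ZMod 3) {v} := fun {σ v} h => by
    have := Submodule.smul_mem _ (r σ).det h
    rwa [detTwist_mulVec, smul_smul, det_mul_self, one_smul] at this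
  have hmap : ∀ {v w}, w ∈ Submodule.span (ZMod 3) {v} ↔
      pt hΔ w ∈ Submodule.span (ZMod 3) {pt hΔ v} := fun {v w} => by
    simp only [Submodule.mem_span_singleton, ← map_smul, (pt hΔ).injective.eq_iff]
  rcases hns with ⟨hgood, ha⟩ | ⟨hbad, hv⟩
  · refine Or.inl ⟨⟨hgood, ha⟩, fun v hv => ?_⟩
    obtain ⟨τ, hτ⟩ := torsInertia_no_line hA hgood ha (pt hΔ v)
      fun h => hv ((pt hΔ).map_eq_zero_iff.1 h)
    refine ⟨_, Reduction.Peu.inertiaLift_mem τ, fun h => hτ ?_⟩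
    have h' := hmap.1 (hspan h)
    rw [pt_mulVec] at h'
    exact mem_span_iff_mem_zmultiples.1 h'
  · obtain ⟨P, hP, hin, hfix⟩ := exists_line_tres (p := 3) hA (by norm_num) hΔ hbad
      (hsemi 3 Nat.prime_three hbad) hv
    obtain ⟨v₁, rfl⟩ := (pt hΔ).surjective P
    have hsub : ∀ σ ∈ A.inertiaSubgroupIn ℚ, ∀ v,
        r σ *ᵥ v - v ∈ Submodule.span (ZMod 3) {v₁} := fun σ hσ v => by
      rw [hmap, map_sub, pt_mulVec]
      exact hin σ hσ _
    refine Or.inr ⟨v₁, fun h => hP (by rw [h, map_zero]), fun σ hσ => ?_, fun σ hσ v => ?_,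
      fun v hv => ?_⟩
    · obtain ⟨c, hc⟩ := Submodule.mem_span_singleton.1 (hsub σ hσ v₁)
      have hc' : r σ *ᵥ v₁ = (c + 1) • v₁ := by rw [add_smul, one_smul, hc, sub_add_cancel]
      have hd := det_eq_of_line (fun h => hP (by rw [h, map_zero])) hc' (hsub σ hσ)
      rw [detTwist_mulVec, hc', ← hd, smul_smul, det_mul_self, one_smul]
    · rw [detTwist_mulVec, ← smul_sub]
      exact Submodule.smul_mem _ _ (hsub σ hσ v)
    · obtain ⟨σ, hσ, hne⟩ := hfix (pt hΔ v) fun h => hv (hmap.2 h)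
      refine ⟨σ, hσ, fun h => hne ?_⟩
      have h1 := hsub σ hσ v
      obtain ⟨c, hc⟩ := Submodule.mem_span_singleton.1 (hspan h)
      rw [← pt_mulVec, ← hc]
      congr 1
      rw [← hc, show c • v - v = (c - 1) • v by rw [sub_smul, one_smul]] at h1
      by_cases hc1 : c - 1 = 0
      · rw [sub_eq_zero.1 hc1, one_smul]
      · exact absurd ((Submodule.smul_mem_iff _ hc1).1 h1) hv

include hΔ in
/-- **No toric action.** -/
theorem no_toric (hA : A.LiesOverPrime 3) (hsemi : W.IsSemistableModel)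
    (hns : (¬ (3 : ℤ) ∣ W.Δ ∧ (3 : ℤ) ∣ W.apOfModel 3) ∨
      ((3 : ℤ) ∣ W.Δ ∧ ¬ 3 ∣ padicValInt 3 W.Δ))
    (h : ∀ σ ∈ A.inertiaSubgroupIn ℚ, ∀ τ ∈ A.inertiaSubgroupIn ℚ, ∀ v,
      r' σ *ᵥ (r' τ *ᵥ v - v) = (r σ).det • (r' τ *ᵥ v - v)) : False := by
  have hmem : ∀ τ ∈ A.inertiaSubgroupIn ℚ, ∀ v, ∀ σ ∈ A.inertiaSubgroupIn ℚ,
      r' σ *ᵥ (r' τ *ᵥ v - v) ∈ Submodule.span (ZMod 3) {r' τ *ᵥ v - v} := fun τ hτ v σ hσ => by
    rw [h σ hσ τ hτ v]
    exact Submodule.smul_mem _ _ (Submodule.mem_span_singleton_self _)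
  rcases plane_cases hΔ hA hsemi hns with ⟨-, hline⟩ | ⟨v₁, hv₁, -, hquot, hline⟩
  · obtain ⟨v, hv⟩ := exists_ne (0 : Fin 2 → ZMod 3)
    obtain ⟨τ, hτ, hτv⟩ := hline v hv
    have hw : r' τ *ᵥ v - v ≠ 0 := fun h0 => hτv (by
      rw [sub_eq_zero.1 h0]; exact Submodule.mem_span_singleton_self v)
    obtain ⟨σ, hσ, hσv⟩ := hline _ hw
    exact hσv (hmem τ hτ v σ hσ)
  · obtain ⟨π, hπ⟩ := IsAlgClosed.exists_pow_nat_eq (-3 : Qbar) (by norm_num : 0 < 8)
    obtain ⟨τ, hτ, hτ4⟩ := exists_sign_neg hA hπ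
    have hd : (r τ).det = -1 := by
      rcases pow_four_and_det hΔ hπ τ with ⟨h4, -⟩ | ⟨-, hd⟩
      · rw [h4] at hτ4; norm_num at hτ4
      · exact hd
    obtain ⟨v, hv⟩ : ∃ v, v ∉ Submodule.span (ZMod 3) {v₁} := by
      by_contra! hall
      have h1 : (Submodule.span (ZMod 3) {v₁}) = ⊤ := eq_top_iff.2 fun v _ => hall v
      have h2 := finrank_span_singleton (K := ZMod 3) hv₁
      rw [h1, finrank_top, Module.finrank_fin_fun] at h2
      omega
    have hw : r' τ *ᵥ v - v ∉ Submodule.span (ZMod 3) {v₁} := fun hw => hv (by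
      have h1 := Submodule.sub_mem _ (hquot τ hτ v) hw
      rw [hd, show r' τ *ᵥ v - (-1 : ZMod 3) • v - (r' τ *ᵥ v - v) =
        ((1 : ZMod 3) - (-1)) • v by rw [sub_smul, one_smul]; abel] at h1
      exact (Submodule.smul_mem_iff _ (by decide)).1 h1)
    obtain ⟨σ, hσ, hσv⟩ := hline _ hw
    exact hσv (hmem τ hτ v σ hσ)

include hΔ in
/-- **No finite flat model.** -/
theorem no_model (hA : A.LiesOverPrime 3) (hsemi : W.IsSemistableModel)
    (hns : (¬ (3 : ℤ) ∣ W.Δ ∧ (3 : ℤ) ∣ W.apOfModel 3) ∨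
      ((3 : ℤ) ∣ W.Δ ∧ ¬ 3 ∣ padicValInt 3 W.Δ))
    {H : Submodule (baseRing A (inertiaRing A)) ((Fin 2 → ZMod 3) → Qbar)}
    (hH : IsModel ((planeEnd (r')).comp (inertiaHom A)) H) : False := by
  have hI := isUnramifiedBase_inertia Nat.prime_three hA
  have hcard : Nat.card (Fin 2 → ZMod 3) = 9 := by simp
  have h3 : ∀ v : Fin 2 → ZMod 3, 3 • v = 0 := fun v => by
    rw [← Nat.cast_smul_eq_nsmul (ZMod 3), show ((3 : ℕ) : ZMod 3) = 0 from rfl, zero_smul]
  obtain ⟨π, hπ⟩ := IsAlgClosed.exists_pow_nat_eq (-3 : Qbar) (by norm_num : 0 < 8)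
  obtain ⟨σ₀, hσ₀, hu4⟩ := exists_sign_neg hA hπ
  have hd : (r σ₀).det = -1 := by
    rcases pow_four_and_det hΔ hπ σ₀ with ⟨h4, -⟩ | ⟨-, hd⟩
    · rw [h4] at hu4; norm_num at hu4
    · exact hd
  have hπ0 : π ≠ 0 := fun h => by
    rw [h, zero_pow (by norm_num)] at hπ
    exact (by norm_num : (-3 : Qbar) ≠ 0) hπ.symm
  rcases plane_cases hΔ hA hsemi hns with ⟨⟨hgood, ha⟩, hline⟩ | ⟨v₁, hv₁, hfix, hquot, hline⟩
  · -- two tame exponents
    have := WeilPairing.charP_residueField Nat.prime_three hA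
    obtain ⟨τ₀, hτ₀⟩ := exists_inertiaHom_eq hσ₀
    have hline' : ∀ v, v ≠ 0 → ∃ τ, (planeEnd (r')).comp (inertiaHom A) τ v ∉
        AddSubgroup.zmultiples v := fun v hv => by
      obtain ⟨σ, hσ, h⟩ := hline v hv
      obtain ⟨τ, hτ⟩ := exists_inertiaHom_eq hσ
      refine ⟨τ, fun hm => h ?_⟩
      rw [mem_span_iff_mem_zmultiples, ← hτ]
      exact hm
    obtain ⟨a, ha', φ, hφ0, hφ⟩ := exists_tame_hom hI hH hcard h3 hline' hπ
    have hΔ0 : W.Δ ≠ 0 := hΔ
    obtain ⟨H₂, hH₂⟩ := Reduction.Peu.exists_isModel_of_good (p := 3) (l := 3) hA hgood hΔ0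
    have hfin : Finite (Reduction.TorsQ W 3) := Finite.of_equiv _ (pt hΔ).toEquiv
    obtain ⟨b, hb', ψ, hψ0, hψ⟩ := exists_tame_hom
      (Reduction.Peu.isUnramifiedBase_inertiaRing hA Nat.prime_three) hH₂
      ((Nat.card_congr (pt hΔ).toEquiv).symm.trans hcard)
      (fun P => Subtype.ext (Reduction.nsmul_coe_torsionBy P))
      (torsInertia_no_line hA hgood ha) hπ
    set u := resOf A (σ₀ π / π) with hu
    have huA : σ₀ π / π ∈ A := (A.valuation_le_one_iff _).1 (by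
      rw [map_div₀, Reduction.v_map_eq_qbar (Reduction.inertia_le_decomposition hσ₀),
        div_self ((map_ne_zero _).2 hπ0)])
    have hu' : u ^ 4 = -1 := by
      rw [hu, ← resOf_pow huA, hu4, resOf_neg (one_mem A), resOf_one]
    set M := r σ₀ with hM
    have hCH : ∀ v, M *ᵥ (M *ᵥ v) - M.trace • (M *ᵥ v) + M.det • v = 0 := fun v => by
      funext i
      fin_cases i <;> simp [Matrix.trace_fin_two, Matrix.det_fin_two] <;> ring
    obtain ⟨v, hv⟩ := exists_ne (0 : Fin 2 → ZMod 3)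
    have h1 := tame_root φ (T := fun w => r' σ₀ *ᵥ w) (θ := u ^ a) (t := -M.trace) (d := -1)
      (fun w => by
        have h := hφ τ₀ w
        have e : ((τ₀ : Qbar ≃+* Qbar) π) = σ₀ π := by rw [← hτ₀]; rfl
        rw [e] at h
        rw [hu, ← h, ← hτ₀]
        rfl) (hφ0 v hv) (by
        have h := hCH v
        rw [hd] at h
        simp only [detTwist_mulVec, ← hM, hd, Matrix.mulVec_smul, smul_smul, neg_mul_neg,
          mul_one, one_smul]
        exact h)
    have hτ₀' : Reduction.Peu.toRingEquivHom σ₀ ∈ Reduction.Peu.inertiaRing A :=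
      Reduction.Peu.mem_inertiaRing hσ₀
    have h2 := tame_root ψ (T := fun P : Reduction.TorsQ W 3 => σ₀ • P) (θ := u ^ b)
      (t := M.trace) (d := -1)
      (fun P => (hψ ⟨_, hτ₀'⟩ P)) (x := pt hΔ v) (hψ0 _ fun h => hv ((pt hΔ).map_eq_zero_iff.1 h))
      (by
        have h := congrArg (pt hΔ) (hCH v)
        rw [map_add, map_sub, map_smul, map_smul, map_zero, pt_mulVec, pt_mulVec, hd] at h
        exact h)
    simp only [map_neg, map_one] at h1 h2
    exact tame_false hu' hb' ha' (t := M.trace)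
      (by linear_combination h2) (by linear_combination h1)
  · -- the fixed line would be connected
    set C := hH.connectedPart with hC
    obtain ⟨τ₀, hτ₀⟩ := exists_inertiaHom_eq hσ₀
    have hfix' : ∀ τ : inertiaRing A, (planeEnd (r')).comp (inertiaHom A) τ v₁ = v₁ :=
      fun τ => hfix _ (inertiaHom_mem τ)
    have hv₁C : v₁ ∈ C := by
      obtain ⟨v, hv⟩ : ∃ v, v ∉ Submodule.span (ZMod 3) {v₁} := by
        by_contra! hall
        have h1 : (Submodule.span (ZMod 3) {v₁}) = ⊤ := eq_top_iff.2 fun v _ => hall v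
        have h2 := finrank_span_singleton (K := ZMod 3) hv₁
        rw [h1, finrank_top, Module.finrank_fin_fun] at h2
        omega
      have hwC : r' σ₀ *ᵥ v - v ∈ C := by
        rw [← hτ₀]
        exact hH.map_sub_mem_connectedPart hI τ₀ v
      have hw : r' σ₀ *ᵥ v - v ∉ Submodule.span (ZMod 3) {v₁} := fun hw => hv (by
        have h1 := Submodule.sub_mem _ (hquot σ₀ hσ₀ v) hw
        rw [hd, show r' σ₀ *ᵥ v - (-1 : ZMod 3) • v - (r' σ₀ *ᵥ v - v) =
          ((1 : ZMod 3) - (-1)) • v by rw [sub_smul, one_smul]; abel] at h1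
        exact (Submodule.smul_mem_iff _ (by decide)).1 h1)
      generalize r' σ₀ *ᵥ v - v = w at hwC hw
      obtain ⟨σ, hσ, hσw⟩ := hline w hw
      obtain ⟨τ, hτ⟩ := exists_inertiaHom_eq hσ
      have hτw : r' σ *ᵥ w ∈ C := by
        rw [← hτ]; exact hH.map_mem_connectedPart hI τ hwC
      have hcardC : C = ⊤ := by
        have hle : AddSubgroup.zmultiples w ≤ C := AddSubgroup.zmultiples_le_of_mem hwC
        have hw0 : w ≠ 0 := fun h => hw (h ▸ Submodule.zero_mem _)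
        have h1 : Nat.card (AddSubgroup.zmultiples w) = 3 := by
          rw [Nat.card_zmultiples, addOrderOf_eq_prime (h3 w) hw0]
        have h2 : Nat.card C ∣ 3 ^ 2 := by
          have := C.card_addSubgroup_dvd_card
          rwa [hcard] at this
        obtain ⟨k, hk, hcardC⟩ := (Nat.dvd_prime_pow Nat.prime_three).1 h2
        have h4 : 3 ∣ Nat.card C := h1.symm.dvd.trans (AddSubgroup.card_dvd_of_le hle)
        interval_cases k
        · rw [hcardC] at h4; norm_num at h4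
        · exact absurd (mem_span_iff_mem_zmultiples.2
            (AddSubgroup.eq_of_le_of_card_ge hle (by rw [h1, hcardC]; norm_num) ▸ hτw)) hσw
        · exact (AddSubgroup.card_eq_iff_eq_top C).1 (by rw [hcardC, hcard]; norm_num)
      rw [hcardC]; exact AddSubgroup.mem_top _
    classical
    have hlam : A.valuation (π ^ 4) ^ (3 - 1) = A.valuation ((3 : ℕ) : Qbar) := by
      rw [← map_pow, ← pow_mul, show 4 * (3 - 1) = 8 from rfl, hπ, Valuation.map_neg,
        Nat.cast_ofNat]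
    let a : inertiaRing A → ZMod 3 := fun τ =>
      if (τ : Qbar ≃+* Qbar) (π ^ 4) = π ^ 4 then 1 else 2
    have h := MazurP.Local.scalar_eq_of_connected hI hH hv₁ (h3 v₁) hv₁C (fun _ => 1)
      (fun τ => by rw [hfix', ZMod.val_one, one_smul]) hlam a (fun τ => by
        have hsq : (τ : Qbar ≃+* Qbar) (π ^ 4) * (τ : Qbar ≃+* Qbar) (π ^ 4) = π ^ 4 * π ^ 4 := by
          rw [← map_mul, ← pow_add, hπ]; simp [map_ofNat]
        by_cases h1 : (τ : Qbar ≃+* Qbar) (π ^ 4) = π ^ 4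
        · simp only [a, if_pos h1, ZMod.val_one, Nat.cast_one, one_mul, h1, sub_self, map_zero]
          exact zero_le
        · have h2 := (mul_self_eq_mul_self_iff.1 hsq).resolve_left h1
          simp only [a, if_neg h1, h2, show (2 : ZMod 3).val = 2 from rfl]
          rw [show -π ^ 4 - ((2 : ℕ) : Qbar) * π ^ 4 = -(((3 : ℕ) : Qbar) * π ^ 4) by
            push_cast; ring, Valuation.map_neg, map_mul, ← hlam, pow_two]
          refine mul_le_mul' ?_ le_rfl
          exact mul_le_of_le_one_right' (by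
            refine (pow_le_one_iff (n := 2) (by norm_num)).1 ?_
            rw [show (2 : ℕ) = 3 - 1 from rfl, hlam]
            exact hI.natCast_lt.le))
    have h0 := h.1 τ₀
    have hne : ¬ (τ₀ : Qbar ≃+* Qbar) (π ^ 4) = π ^ 4 := fun he => by
      have e : ((τ₀ : Qbar ≃+* Qbar) (π ^ 4)) = σ₀ (π ^ 4) := by rw [← hτ₀]; rfl
      rw [div_pow, ← map_pow, ← e, he, div_self (pow_ne_zero 4 hπ0)] at hu4
      norm_num at hu4
    simp only [a, if_neg hne] at h0
    exact absurd h0 (by decide)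

end FLTAgent.LevelThree
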