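import Fermat.Agent.LevelThree.Descent
import Fermat.Agent.RT.Irr.Residual

/-!
# Residual modularity modulo three at a level divisible by three only once

A residually irreducible semistable curve which is residually modular modulo three of level
`3 ^ k * M` is, or its cyclotomic twist is, residually modular of level `3 * M`.
-/

set_option autoImplicit false

noncomputable section

namespace FLTAgent.LevelThree

open WeierstrassCurve CongruenceSubgroup IsLocalRing Polynomial FLTAgent.GalRep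
open scoped MatrixGroups

local notation "Γℚ" => AlgebraicClosure ℚ ≃ₐ[ℚ] AlgebraicClosure ℚ

/-- A normalised eigenform of level `M` congruent to the cyclotomic twist of `W`. -/
def IsTwistModularOfLevel (W : WeierstrassCurve ℤ) (p M : ℕ) : Prop :=
  ∃ (f : CuspForm (CongruenceSubgroup.Gamma0 M) 2) (𝔪 : Ideal (integralClosure ℤ ℂ)),
    f.IsNormalizedEigenform ∧ 𝔪.IsMaximal ∧ (p : integralClosure ℤ ℂ) ∈ 𝔪 ∧
    ∀ ℓ : ℕ, ℓ.Prime → W.IsGoodPrimeFor ℓ → ¬ ℓ ∣ M → ℓ ≠ p →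
      ∃ a : integralClosure ℤ ℂ, (a : ℂ) = ModularFormClass.qCoeff f ℓ ∧
        a - (((ℓ : ℤ) * W.apOfModel ℓ : ℤ) : integralClosure ℤ ℂ) ∈ 𝔪

variable {W : WeierstrassCurve ℤ}

/-- A large good prime `ℓ ≡ 2 (mod 3)` with coefficient prime to three. -/
theorem exists_prime_two_mod_three (hΔ : W.Δ ≠ 0) (hsemi : W.IsSemistableModel)
    (hirr : W.ModRepIsIrreducible 3) (S : Finset ℕ) :
    ∃ ℓ : ℕ, ℓ.Prime ∧ ℓ ∉ S ∧ ℓ % 3 = 2 ∧ (W.apOfModel ℓ : ZMod 3) ≠ 0 := by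
  classical
  obtain ⟨g, hdet, htr⟩ := RTIrr.exists_det_neg_one_trace_ne_zero hΔ 3 hsemi (by norm_num) hirr
    (by decide)
  set r := LevelDrop.torsRep hΔ 3
  obtain ⟨L, hL, hfix⟩ := r.factorsThroughFiniteLevel
  obtain ⟨ℓ, hℓ, hℓS, A, hA, σ, hσ, hag⟩ :=
    GalRep.frobeniusDense L hL g (S ∪ W.Δ.natAbs.primeFactors ∪ {3})
  simp only [Finset.mem_union, Finset.mem_singleton, not_or] at hℓS
  have hgood : W.IsGoodPrimeFor ℓ := fun hd => hℓS.1.2 (Nat.mem_primeFactors.mpr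
    ⟨hℓ, Int.natCast_dvd.mp hd, Int.natAbs_ne_zero.mpr hΔ⟩)
  have hgσ : r.ρ g = r.ρ σ := by
    rw [show σ = g * (g⁻¹ * σ) by group, map_mul,
      hfix _ (GalRep.fixing_of_agree hag).1, mul_one]
  rw [RTIrr.torsMat_eq] at hdet htr
  rw [show (LevelDrop.torsRep hΔ 3).ρ g = (LevelDrop.torsRep hΔ 3).ρ σ from hgσ] at hdet htr
  rw [← RTIrr.torsMat_eq] at hdet htr
  have hcp := LevelDrop.charpoly_torsRep_frobenius hΔ 3 hℓ hgood hℓS.2 A hA σ hσ
  rw [← LinearMap.charpoly_toMatrix _ (RTIrr.torsBasis hΔ 3), ← RTIrr.torsMat_eq] at hcp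
  rw [Matrix.charpoly_fin_two] at hcp
  have h0 := congrArg (fun f : (ZMod 3)[X] => f.coeff 0) hcp
  have h1 := congrArg (fun f : (ZMod 3)[X] => f.coeff 1) hcp
  simp [coeff_X_pow, coeff_C, coeff_X] at h0 h1
  refine ⟨ℓ, hℓ, hℓS.1.1, ?_, fun ha => htr ?_⟩
  · rw [hdet] at h0
    have h2 : ((ℓ : ℕ) : ZMod 3) = ((2 : ℕ) : ZMod 3) := by rw [← h0]; decide
    rw [ZMod.natCast_eq_natCast_iff'] at h2
    omega
  · rw [h1, ha]

variable {ι : Type} {l : ι → ℕ}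

/-- An eigenclass of level `N` comes from an eigenform. -/
theorem exists_eigenform_of_hasClass {N : ℕ} [NeZero N] {S : Finset ℕ}
    (hNS : ∀ q : ℕ, q.Prime → q ∣ N → q ∈ S) (hcov : ∀ ℓ : ℕ, ℓ.Prime → ℓ ∉ S → ∃ i, l i = ℓ)
    (hlN : ∀ i, ¬ l i ∣ N) {e : ℕ → ℤ}
    (hs : Admissible l fun i => (e (l i) : ZMod 3))
    (h : HasClass N l fun i => (e (l i) : ZMod 3)) :
    ∃ (g : CuspForm (Gamma0 N) 2) (𝔪 : Ideal (integralClosure ℤ ℂ)),
      g.IsNormalizedEigenform ∧ 𝔪.IsMaximal ∧ ((3 : ℕ) : integralClosure ℤ ℂ) ∈ 𝔪 ∧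
      ∀ ℓ : ℕ, ℓ.Prime → ℓ ∉ S →
        ∃ a : integralClosure ℤ ℂ, (a : ℂ) = ModularFormClass.qCoeff g ℓ ∧
          a - (e ℓ : integralClosure ℤ ℂ) ∈ 𝔪 := by
  classical
  have hl := hs.prime
  set a : ι → ℤ_[3] := fun i => (e (l i) : ℤ_[3]) with ha
  have hac : ∀ i, residue ℤ_[3] (a i) = redThree ((e (l i) : ℤ) : ZMod 3) := fun i => by
    rw [ha, map_intCast, map_intCast]
  have hne : RT.NonEis l a := fun m hm => by
    obtain ⟨i, h1, hc⟩ := hs.nonEis m hm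
    refine ⟨i, h1, (residue_ne_zero_iff_isUnit _).mp fun h0 => hc (redThree.injective ?_)⟩
    rw [map_sub, sub_eq_zero, hac, map_add, map_one, residue_natCast] at h0
    rw [h0, map_add, map_one]
  obtain ⟨φ, hφ, hφ0, hT⟩ := h
  have hP := (exists_cohPart_of_eigen hl hlN a _ hac hne
    (LevelRaise.parHom_le_ellHom hφ) fun i => hT i ⟨(hl i).ne_zero⟩).2 hφ0
  have : IsAddTorsionFree ℤ_[3] := RT.isAddTorsionFree_of_charZero
  have := RT.moduleFinite_coh (χ := RT.trivChar) ℤ_[3] ℤ_[3] (one_dvd N)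
  have := RT.moduleFree_coh (χ := RT.trivChar) (O := ℤ_[3]) (one_dvd N)
  set P := RT.cohPart RT.trivChar (one_dvd N) hl a with hPdef
  have : IsNoetherian ℤ_[3] (RT.Coh N RT.trivChar ℤ_[3]) :=
    isNoetherian_of_isNoetherianRing_of_finite ℤ_[3] _
  have : Module.Finite ℤ_[3] P := Module.IsNoetherian.finite ℤ_[3] P
  have : Module.Free ℤ_[3] P := Module.Free.of_basis
    (Submodule.basisOfPid (Module.Free.chooseBasis ℤ_[3] (RT.Coh N RT.trivChar ℤ_[3])) P).2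
  have : Nontrivial P := Submodule.nontrivial_iff_ne_bot.mpr hP
  obtain ⟨Θ, hΘ⟩ := RT.exists_theta (N' := N) (χ := RT.trivChar) (one_dvd N) hl a hne squarefree_one
    (fun q hq hd => absurd hd hq.not_dvd_one) (mul_one N).symm
  let Θ' := Θ.comp (RT.restrictAway hNS)
  let b : ℕ → ℤ_[3] := fun ℓ => (e ℓ : ℤ_[3])
  have hall : ∀ (ℓ : ℕ) (hℓ : ℓ.Prime) (hℓN : ¬ ℓ ∣ N) (hℓS : ℓ ∉ (↑S : Set ℕ)),
      RT.IsTopNilpotent (Θ' (CuspForm.heckeAlgebra.T hℓ hℓN hℓS) -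
        algebraMap ℤ_[3] (Module.End ℤ_[3] P) (b ℓ)) := by
    intro ℓ hℓ hℓN hℓS
    obtain ⟨i, rfl⟩ := hcov ℓ hℓ (by simpa using hℓS)
    exact RT.isTopNilpotent_part (X := fun i => RT.opP ℤ_[3] ℤ_[3] RT.trivChar (one_dvd N) (hl i))
      (fun i j => RT.opP_comm (χ := RT.trivChar) ℤ_[3] ℤ_[3] (one_dvd N) (hl i) (hl j)) a (i := i)
      (fun v => hΘ _ hℓ hℓN v)
  have := RT.nontrivial_heckeImage Θ'
  obtain ⟨g, 𝔪, hg, h𝔪, hpm, hcong⟩ := RT.exists_eigenform_congr three_mem_maximalIdeal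
    (A := RT.heckeImage Θ') (RT.toImage Θ') b
    fun ℓ hℓ hℓN hℓS m hm =>
      haveI := hm
      RT.mem_of_isTopNilpotent (RT.heckeImage Θ').val Subtype.val_injective (hall ℓ hℓ hℓN hℓS) m
  exact ⟨g, 𝔪, hg, h𝔪, hpm, fun ℓ hℓ hℓS => hcong ℓ hℓ (fun hd => hℓS (hNS ℓ hℓ hd)) hℓS _ rfl⟩

/-- A class of level `3 ^ k * M` becomes one of level `3 * M * 3 ^ j`. -/
theorem hasClass_three {M : ℕ} [NeZero M] (hM : ¬ 3 ∣ M) {c : ι → ZMod 3} (hs : Admissible l c)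
    (hlM : ∀ i, ¬ l i ∣ 3 * M) (k : ℕ) (h : HasClass (3 ^ k * M) l c) :
    HasClass (3 * M) l c ∨ HasClass (3 * M) l (twist l c) := by
  have hlM' : ∀ i, ¬ l i ∣ 3 * M * 3 := fun i hd => by
    rcases (hs.prime i).dvd_mul.mp hd with h1 | h1
    · exact hlM i h1
    · exact hlM i (h1.trans (dvd_mul_right 3 M))
  rcases k with _ | k
  · obtain ⟨φ, hφ, hφ0, hT⟩ : HasClass M l c := by simpa using h
    obtain ⟨D⟩ := LevelRaise.exists_wData Nat.prime_three hM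
    left
    suffices HasClass (M * 3) l c by simpa [mul_comm] using this
    refine ⟨LevelRaise.resHom (LevelRaise.gamma0_mul_le M 3) φ,
      LevelRaise.resHom_mem_parHom _ hφ, fun h0 => hφ0 ?_, fun i hi => ?_⟩
    · have e := D.cores_resHom φ
      rw [h0] at e
      refine AddMonoidHom.ext fun γ => ?_
      obtain ⟨γ, rfl⟩ := Additive.ofMul.surjective γ
      have e' := DFunLike.congr_fun e (Additive.ofMul γ)
      rw [LevelRaise.cores_apply, AddMonoidHom.smul_apply, nsmul_eq_mul] at e'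
      simp only [AddMonoidHom.zero_apply, Finset.sum_const_zero] at e'
      exact (mul_eq_zero.mp e'.symm).resolve_left (by decide)
    · have hd : ¬ l i ∣ M * 3 := by rw [mul_comm]; exact hlM i
      have := heckeOp_restrict (dvd_mul_right M 3) (hs.prime i) hd φ
      rw [hT i hi] at this
      exact this
  · have h' : HasClass (3 * M * 3 ^ k) l c := by
      have e : 3 ^ (k + 1) * M = 3 * M * 3 ^ k := by ring
      simpa [e] using h
    exact hasClass_descend (dvd_mul_right 3 M) hs hlM' k h'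

/-- **The three-part of the level.** -/
theorem residual_or_twist_levelThree (hΔ : W.Δ ≠ 0) (hsemi : W.IsSemistableModel)
    (hirr : W.ModRepIsIrreducible 3) {M k : ℕ} [NeZero M] (hM : ¬ 3 ∣ M)
    (h : W.IsResiduallyModularOfLevel 3 (3 ^ k * M)) :
    W.IsResiduallyModularOfLevel 3 (3 * M) ∨ IsTwistModularOfLevel W 3 (3 * M) := by
  classical
  obtain ⟨f, 𝔪, hf, hmax, hpm, hc⟩ := h
  set S : Finset ℕ := (3 * M).primeFactors ∪ W.Δ.natAbs.primeFactors with hSdef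
  have hbad : ∀ ℓ : ℕ, ℓ.Prime → ℓ ∉ S → W.IsGoodPrimeFor ℓ := fun ℓ hℓ h hd =>
    h (Finset.mem_union_right _ (Nat.mem_primeFactors.mpr
      ⟨hℓ, Int.natCast_dvd.mp hd, Int.natAbs_ne_zero.mpr hΔ⟩))
  have hMS : ∀ q : ℕ, q.Prime → q ∣ 3 * M → q ∈ S := fun q hq hd => Finset.mem_union_left _
    (Nat.mem_primeFactors.mpr ⟨hq, hd, mul_ne_zero (by norm_num) (NeZero.ne M)⟩)
  have h3S : 3 ∈ S := hMS 3 Nat.prime_three (dvd_mul_right 3 M)
  let l : RT.AwayPrimes S → ℕ := fun i => i.1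
  have hlM : ∀ i, ¬ l i ∣ 3 * M := fun i hd => i.2.2 (hMS _ i.2.1 hd)
  have hne3 : ∀ i, l i ≠ 3 := fun i e => i.2.2 (by rw [show i.1 = 3 from e]; exact h3S)
  let c : RT.AwayPrimes S → ZMod 3 := fun i => ((W.apOfModel (l i) : ℤ) : ZMod 3)
  have hsys := RT.sys_awayPrimes (O := ℤ_[3]) (W := W) h3S hbad
  have hs : Admissible l c :=
    { prime := fun i => i.2.1
      ne_three := hne3
      two := by
        obtain ⟨ℓ, hℓ, hℓS, h2, ha⟩ := exists_prime_two_mod_three hΔ hsemi hirr S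
        exact ⟨⟨ℓ, hℓ, hℓS⟩, h2, ha⟩
      nonEis := fun m hm => by
        obtain ⟨i, h1, hu⟩ := hsys.nonEis hΔ three_mem_maximalIdeal (by norm_num) hirr m hm
        refine ⟨i, h1, fun e => ?_⟩
        have h0 := (residue_ne_zero_iff_isUnit _).mpr hu
        rw [map_sub, map_add, map_one, residue_natCast, map_intCast] at h0
        refine h0 (sub_eq_zero.mpr ?_)
        have := congrArg redThree e
        rw [map_add, map_one] at this
        rw [← this]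
        exact (map_intCast redThree _).symm }
  have hstart : HasClass (3 ^ k * M) l c := by
    obtain ⟨z, hzp, hz0, hzT⟩ := LevelRaise.exists_residual_class (p := 3) hf 𝔪 hmax hpm
    refine ⟨z, hzp, hz0, fun i hi => ?_⟩
    have hd : ¬ l i ∣ 3 ^ k * M := fun hd => by
      rcases i.2.1.dvd_mul.mp hd with h1 | h1
      · exact hlM i ((i.2.1.dvd_of_dvd_pow h1).trans (dvd_mul_right 3 M))
      · exact hlM i (h1.trans (dvd_mul_left M 3))
    rw [hzT (l i) (W.apOfModel (l i)) i.2.1 hd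
      (hc _ i.2.1 (hbad _ i.2.1 i.2.2) hd (hne3 i))]
    rfl
  have hcov : ∀ ℓ : ℕ, ℓ.Prime → ℓ ∉ S → ∃ i, l i = ℓ := fun ℓ hℓ hS => ⟨⟨ℓ, hℓ, hS⟩, rfl⟩
  have hSmem : ∀ ℓ : ℕ, ℓ.Prime → W.IsGoodPrimeFor ℓ → ¬ ℓ ∣ 3 * M → ℓ ∉ S := fun ℓ hℓ hg hd hS => by
    rcases Finset.mem_union.mp hS with h1 | h1
    · exact hd (Nat.dvd_of_mem_primeFactors h1)
    · exact hg (Int.natCast_dvd.mpr (Nat.dvd_of_mem_primeFactors h1))
  rcases hasClass_three hM hs hlM k hstart with h1 | h1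
  · obtain ⟨g, 𝔫, hg, h𝔫, hp, hg'⟩ := exists_eigenform_of_hasClass hMS hcov hlM
      (e := fun ℓ => W.apOfModel ℓ) hs h1
    exact Or.inl ⟨g, 𝔫, hg, h𝔫, hp, fun ℓ hℓ hgood hd _ => hg' ℓ hℓ (hSmem ℓ hℓ hgood hd)⟩
  · have e : twist l c = fun i => (((l i : ℤ) * W.apOfModel (l i) : ℤ) : ZMod 3) :=
      funext fun i => by simp [twist, c]
    rw [e] at h1
    obtain ⟨g, 𝔫, hg, h𝔫, hp, hg'⟩ := exists_eigenform_of_hasClass hMS hcov hlM
      (e := fun ℓ => (ℓ : ℤ) * W.apOfModel ℓ) (e ▸ hs.twist) h1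
    exact Or.inr ⟨g, 𝔫, hg, h𝔫, hp, fun ℓ hℓ hgood hd _ => hg' ℓ hℓ (hSmem ℓ hℓ hgood hd)⟩

end FLTAgent.LevelThree
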