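import Fermat.Agent.LevelThree.Local
import Fermat.Agent.LevelThree.Modular
import Fermat.Agent.LevelLower.MazurEigen
import Fermat.Agent.LevelLower.Endgame.Rep
import Fermat.Agent.RT.AtP.Cover
import Fermat.Agent.FlatModel.ModelOfFunction
import Fermat.Agent.FlatModel.X0Torsion
import Fermat.Agent.FlatModel.X0AllPrimes
import Fermat.Agent.Newform.Raise

/-!
# No twisted modularity of level divisible by three only once

When `W` is supersingular or très ramifié at three, the cyclotomic twist of `W[3]` does not occur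
in `J₀(3 M)` with `3 ∤ M`: it would be toric or finite flat at three.
-/

set_option autoImplicit false
set_option linter.style.haveILetI false
set_option linter.unusedSectionVars false
set_option synthInstance.maxHeartbeats 100000

noncomputable section

namespace FLTAgent.LevelThree

open Matrix ModularCurve WeierstrassCurve IsLocalRing FLTAgent.Semistable
open scoped WeierstrassCurve.Affine

local notation "Qbar" => AlgebraicClosure ℚ
local notation "Γℚ" => AlgebraicClosure ℚ ≃ₐ[ℚ] AlgebraicClosure ℚ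
local notation "Zc" => integralClosure ℤ ℂ

variable {W : WeierstrassCurve ℤ}

section

variable (hΔ : W.Δ ≠ 0) {N : ℕ} [NeZero N] {a : ℕ → ℕ} {S : ℕ}

local notation "r'" => detTwist (LevelLower.Endgame.torsMat hΔ 3)

theorem span_detTwist (hirr : W.ModRepIsIrreducible 3) :
    Submodule.span (ZMod 3) (Set.range (r')) = ⊤ := by
  refine eq_top_iff.2 ((LevelLower.Endgame.span_torsMat_eq_top hΔ 3 (by norm_num) hirr).ge.trans
    (Submodule.span_le.2 ?_))
  rintro _ ⟨g, rfl⟩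
  have h : LevelLower.Endgame.torsMat hΔ 3 g =
      (LevelLower.Endgame.torsMat hΔ 3 g).det • r' g := by
    show _ = _ • ((LevelLower.Endgame.torsMat hΔ 3 g).det • LevelLower.Endgame.torsMat hΔ 3 g)
    rw [smul_smul, det_mul_self, one_smul]
  rw [SetLike.mem_coe, h]
  exact Submodule.smul_mem _ _ (Submodule.subset_span ⟨g, rfl⟩)

theorem exists_fixing_detTwist :
    ∃ L : IntermediateField ℚ Qbar, FiniteDimensional ℚ L ∧
      ∀ σ : Γℚ, (∀ x ∈ L, σ x = x) → r' σ = 1 := by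
  obtain ⟨L, hL, hfix⟩ := LevelLower.Endgame.exists_fixing_torsMat_eq_one hΔ 3
  refine ⟨L, hL, fun σ hσ => ?_⟩
  show (LevelLower.Endgame.torsMat hΔ 3 σ).det • LevelLower.Endgame.torsMat hΔ 3 σ = 1
  rw [hfix σ hσ, det_one, one_smul]

/-- Nonzero eigen classes give the plane in the Jacobian. -/
theorem exists_plane (hirr : W.ModRepIsIrreducible 3) [NeZero S] (hS : N * 3 ∣ S)
    (hfrob : ∀ l : ℕ, l.Prime → ¬ l ∣ S → ∀ A : ValuationSubring Qbar, A.LiesOverPrime l →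
      ∀ σ : Γℚ, A.IsFrobeniusAt σ l →
        (r' σ).trace = (a l : ZMod 3) ∧ (r' σ).det = (l : ZMod 3))
    (hx : ∃ x ∈ LevelLower.eigenSub N 3 a S, x ≠ 0) :
    ∃ ψ : (Fin 2 → ZMod 3) →+ JZero N, Function.Injective ψ ∧
      (∀ v, ψ v ∈ LevelLower.eigenSub N 3 a S) ∧
      ∀ (g : Γℚ) v, ψ (r' g *ᵥ v) = g • ψ v := by
  obtain ⟨x, hx, hx0⟩ := hx
  have : Nontrivial (LevelLower.eigenSub N 3 a S) :=
    ⟨⟨x, hx⟩, 0, fun h => hx0 (congrArg Subtype.val h)⟩
  obtain ⟨f, hf, hfg⟩ := exists_plane_of_killedBy (span_detTwist hΔ hirr) (by decide)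
    (LevelLower.killedBy_eigenRep hS _ (exists_fixing_detTwist hΔ) hfrob)
  refine ⟨(LevelLower.eigenSub N 3 a S).subtype.comp f.toAddMonoidHom,
    fun v w h => hf (Subtype.ext h), fun v => (f v).2, fun g v => ?_⟩
  show ((f (r' g *ᵥ v) : LevelLower.eigenSub N 3 a S) : JZero N) = _
  rw [hfg]
  rfl

end

set_option maxHeartbeats 2000000 in
-- the classes live in large quotients
/-- **No twist at level `3 M`.** -/
theorem not_isTwistModularOfLevel (hΔ : W.Δ ≠ 0) (hsemi : W.IsSemistableModel)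
    (hirr : W.ModRepIsIrreducible 3)
    (hns : (¬ (3 : ℤ) ∣ W.Δ ∧ (3 : ℤ) ∣ W.apOfModel 3) ∨
      ((3 : ℤ) ∣ W.Δ ∧ ¬ 3 ∣ padicValInt 3 W.Δ))
    {M : ℕ} [NeZero M] (hM : ¬ 3 ∣ M) : ¬ IsTwistModularOfLevel W 3 (3 * M) := by
  classical
  rintro ⟨f, 𝔪, hf, hmax, hpm, hc⟩
  have hM' : ¬ 3 ∣ 4 * M := fun h => (Nat.prime_three.dvd_mul.1 h).elim (by norm_num) hM
  have : NeZero (4 * M) := ⟨mul_ne_zero (by norm_num) (NeZero.ne M)⟩
  have : NeZero (4 * M * 3) := ⟨mul_ne_zero (NeZero.ne _) (by norm_num)⟩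
  have : NeZero (3 * M) := ⟨mul_ne_zero (by norm_num) (NeZero.ne M)⟩
  have hdvd : 3 * M ∣ 4 * M * 3 := ⟨4, by ring⟩
  obtain ⟨g, hg, hgf⟩ := Newform.exists_eigenform_of_dvd hdvd hf
  set r' := detTwist (LevelLower.Endgame.torsMat hΔ 3) with hr'
  let a : ℕ → ℕ := fun ℓ => ((((ℓ : ℤ) * W.apOfModel ℓ : ℤ)) : ZMod 3).val
  set S := 4 * M * 3 * 3 * W.Δ.natAbs with hS
  have : NeZero S := ⟨mul_ne_zero (mul_ne_zero (NeZero.ne _) (by norm_num))
    (Int.natAbs_ne_zero.2 hΔ)⟩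
  have hgood : ∀ ℓ, ℓ.Prime → ¬ ℓ ∣ S → W.IsGoodPrimeFor ℓ ∧ ¬ ℓ ∣ 4 * M * 3 ∧ ℓ ≠ 3 :=
    fun ℓ hℓ h => ⟨fun hd => h ((Int.natCast_dvd.1 hd).mul_left _),
      fun hd => h ((hd.mul_right 3).mul_right _),
      fun e => h (e ▸ ((dvd_mul_left 3 (4 * M * 3)).mul_right _))⟩
  have hfrob : ∀ l : ℕ, l.Prime → ¬ l ∣ S → ∀ A : ValuationSubring Qbar, A.LiesOverPrime l →
      ∀ σ : Γℚ, A.IsFrobeniusAt σ l →
        (r' σ).trace = (a l : ZMod 3) ∧ (r' σ).det = (l : ZMod 3) := by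
    intro l hl hlS A hA σ hσ
    obtain ⟨h1, -, h3⟩ := hgood l hl hlS
    obtain ⟨ht, hd⟩ := LevelLower.Endgame.torsMat_frobenius hΔ 3 hl h1 h3 A hA σ hσ
    have hd2 := det_mul_self hΔ σ
    constructor
    · show ((LevelLower.Endgame.torsMat hΔ 3 σ).det • LevelLower.Endgame.torsMat hΔ 3 σ).trace = _
      rw [trace_smul, ht, hd, smul_eq_mul, ZMod.natCast_val, ZMod.cast_id, Int.cast_mul,
        Int.cast_natCast]
    · show ((LevelLower.Endgame.torsMat hΔ 3 σ).det • LevelLower.Endgame.torsMat hΔ 3 σ).det = _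
      rw [det_smul, Fintype.card_fin, pow_two, hd2, one_mul, hd]
  obtain ⟨x, hx0, hx3, hxT⟩ := LevelLower.Endgame.exists_eigenTorsion (p := 3) hg 𝔪 hpm a
    {ℓ | ℓ ∣ S} fun ℓ hℓ hℓN hℓS => by
      obtain ⟨h1, -, h3⟩ := hgood ℓ hℓ hℓS
      obtain ⟨z, hz, hzm⟩ := hc ℓ hℓ h1 (fun hd => hℓN (hd.trans hdvd)) h3
      refine ⟨z, hz.trans (hgf ℓ hℓ hℓN).symm, ?_⟩
      obtain ⟨k, hk⟩ : (3 : ℤ) ∣ ((ℓ : ℤ) * W.apOfModel ℓ) - (a ℓ : ℤ) :=
        (ZMod.intCast_zmod_eq_zero_iff_dvd _ 3).1 (by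
          rw [Int.cast_sub, Int.cast_natCast, ZMod.natCast_val, ZMod.cast_id, sub_self])
      have hk' : (((ℓ : ℤ) * W.apOfModel ℓ : ℤ) : Zc) - (a ℓ : Zc) = ((3 : ℕ) : Zc) * (k : Zc) := by
        have := congrArg (Int.cast : ℤ → Zc) hk
        push_cast at this ⊢
        exact this
      rw [← sub_add_sub_cancel z ((((ℓ : ℤ) * W.apOfModel ℓ : ℤ)) : Zc) (a ℓ : Zc), hk']
      exact add_mem hzm (Ideal.mul_mem_right _ _ hpm)
  have hxmem : x ∈ LevelLower.eigenSub (4 * M * 3) 3 a S :=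
    ⟨hx3, fun l hl => hxT l l.2 (hgood l l.2 hl).2.1 hl⟩
  obtain ⟨A, hA⟩ := Frobenius.exists_liesOverPrime Nat.prime_three
  by_cases hlow : ∃ y ∈ LevelLower.eigenSub (4 * M) 3 a S, y ≠ 0
  · -- a finite flat model
    obtain ⟨ψ, hψi, -, hψg⟩ := exists_plane hΔ hirr (N := 4 * M)
      (Dvd.intro (3 * W.Δ.natAbs) (by rw [hS]; ring)) hfrob hlow
    letI : DistribMulAction Γℚ (Fin 2 → ZMod 3) := DistribMulAction.compHom _ (planeEnd r')
    have hlev : FlatModel.IsLevelled (T := Fin 2 → ZMod 3) := by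
      obtain ⟨L, hL, hfix⟩ := exists_fixing_detTwist hΔ
      exact ⟨L, hL, fun σ hσ v => by
        show r' σ *ᵥ v = v
        rw [hr', hfix σ hσ, one_mulVec]⟩
    obtain ⟨Mdl⟩ := FlatModel.nonempty_functionModel_jZero hM'
      (FlatModel.genusEqAt_of_not_dvd hM') hlev ψ (fun σ v => hψg σ v) hψi
    obtain ⟨H, hH⟩ := FlatModel.exists_isModel_of_functionModel hA hlev Mdl
    exact no_model hΔ hA hsemi hns hH
  · -- a toric action
    push Not at hlow
    obtain ⟨ψ, hψi, hψm, hψg⟩ := exists_plane hΔ hirr (N := 4 * M * 3)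
      (Dvd.intro W.Δ.natAbs rfl) hfrob ⟨x, hxmem, hx0⟩
    haveI := WeilPairing.charP_residueField Nat.prime_three hA
    haveI := GoodRed.isAlgClosed_residue A
    haveI := GoodRed.isFunctionField_fullC A hA (4 * M) hM'
    have h2 : nuTwo (4 * M) = 0 := nuTwo_mul_eq_zero (by
      rw [nuTwo, Nat.card_eq_zero]; exact Or.inl ⟨fun y => absurd y.2 (by revert y; decide)⟩)
    have h3 : nuThree (4 * M) = 0 := nuThree_mul_eq_zero (by
      rw [nuThree, Nat.card_eq_zero]; exact Or.inl ⟨fun y => absurd y.2 (by revert y; decide)⟩)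
    obtain ⟨ι, _, X, hfr, hxX, hG₁, hG₂⟩ := exists_x0CrossData hA hM' h2 h3
      (mul_psi_le_card_crossingSet hA hM' h2 h3 (fun h => absurd h (by norm_num))
        fun _ => (show (2 : ℕ) ∣ 4 by norm_num).mul_right M)
    refine no_toric hΔ hA hsemi hns fun σ hσ τ hτ v => hψi ?_
    have hn : 3 ^ 1 • ψ v = 0 := by rw [pow_one]; exact (hψm v).1
    have key := RT.AtP.smul_inertia_sub_eq hfr hxX hG₁ hG₂ (n := 1) (x := ψ v) hn
      (hlow _ (LevelLower.pushPic_mem_eigenSub 1 _ (Dvd.intro W.Δ.natAbs rfl) (hψm v)))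
      (hlow _ (LevelLower.pushPic_mem_eigenSub 3 _ (Dvd.intro W.Δ.natAbs rfl) (hψm v)))
      (Or.inl hσ) hτ
    set χ := ((GalRep.cyclo 3 σ : ℤ_[3]).toZModPow 1).val with hχ
    have hdet : (LevelLower.Endgame.torsMat hΔ 3 σ).det = (χ : ZMod 3) :=
      det_torsMat_inertia hΔ σ fun μ hμ => GalRep.cyclo_spec 3 σ (n := 1) (by rwa [pow_one])
    rw [hψg, map_sub, hψg, hdet, Nat.cast_smul_eq_nsmul, map_nsmul, map_sub, hψg]
    exact key

end FLTAgent.LevelThree
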