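import Fermat.Agent.Reduction.AtP
import Fermat.Agent.Reduction.Peu.Kummer

/-!
# Très ramifié multiplicative reduction

When `p` is prime to `v(Δ)` the line at a multiplicative prime has no complement fixed by inertia:
the distance of a fixed point to the node would be an integral power of `|p|`.
-/

set_option autoImplicit false

noncomputable section

namespace FLTAgent.LevelThree

open WeierstrassCurve FLTAgent.Reduction FLTAgent.Reduction.Peu
open scoped WeierstrassCurve.Affine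

variable {A : ValuationSubring Qbar} {p : ℕ} [hp : Fact p.Prime] {W : WeierstrassCurve ℤ}

/-- **The line at a très ramifié prime.** -/
theorem exists_line_tres (hA : A.LiesOverPrime p) (h2 : p ≠ 2) (hΔ0 : W.Δ ≠ 0)
    (hbad : (p : ℤ) ∣ W.Δ) (hc₄ : ¬(p : ℤ) ∣ W.c₄) (hv : ¬ p ∣ padicValInt p W.Δ) :
    ∃ v₁ : TorsQ W p, v₁ ≠ 0 ∧
      (∀ σ ∈ A.inertiaSubgroupIn ℚ, ∀ v : TorsQ W p,
        σ • v - v ∈ Submodule.span (ZMod p) {v₁}) ∧
      ∀ v : TorsQ W p, v ∉ Submodule.span (ZMod p) {v₁} →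
        ∃ σ ∈ A.inertiaSubgroupIn ℚ, σ • v ≠ v := by
  have hW := integralAt W A
  have hodd : Odd p := hp.out.odd_of_ne_two h2
  obtain ⟨P₁, hP₁, hP₁0, hP₁1⟩ :=
    exists_torsion_mem_oneSubgroup_qbar hA hp.out h2 hΔ0 (Or.inr hc₄)
  obtain ⟨P₀, hP₀, hP₀0⟩ :=
    exists_torsion_not_mem_zeroSubgroup_qbar hA hp.out hp.out h2 hΔ0 hbad hc₄
  have mem : ∀ Q : (WQbar W).toAffine.Point, p • Q = 0 → Q ∈ TorsQ W p := fun Q hQ => by
    rw [Submodule.mem_torsionBy_iff, natCast_zsmul]; exact hQ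
  obtain ⟨-, hmem⟩ := exists_basis_of_line hΔ0 (oneSubgroup hW)
    (P₁ := ⟨P₁, mem P₁ hP₁⟩) (P₀ := ⟨P₀, mem P₀ hP₀⟩)
    (fun h => hP₁0 (congrArg Subtype.val h)) hP₁1 (fun h => hP₀0 (oneSubgroup_le hW h))
  refine ⟨⟨P₁, mem P₁ hP₁⟩, fun h => hP₁0 (congrArg Subtype.val h), fun σ hσ v => ?_,
    fun v hvL => ?_⟩
  · exact (hmem _).2 (mem_oneSubgroup_of_mem_zeroSubgroup hA hp.out h2 hΔ0 hbad hc₄
      (nsmul_coe_torsionBy _) (smul_sub_mem_zeroSubgroup hA hp.out hΔ0 hbad hc₄ hσ _))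
  by_contra! hfix
  have hv0 : (v : (WQbar W).toAffine.Point) ∉ zeroSubgroup hW := fun h =>
    hvL ((hmem v).2 (mem_oneSubgroup_of_mem_zeroSubgroup hA hp.out h2 hΔ0 hbad hc₄
      (nsmul_coe_torsionBy v) h))
  obtain ⟨x₀, y₀, α, r, hn, h⟩ := exists_nodal hA hp.out hΔ0 hbad hc₄
  obtain ⟨x, y, hxy, hP, hr, hr1, hc⟩ := exists_outside hn h hodd (nsmul_coe_torsionBy v) hv0
  have hg0 : A.valuation (x - x₀) ≠ 0 := (h.r_pos.trans hr).ne'
  have hfixx : ∀ σ ∈ A.inertiaSubgroupIn ℚ, σ (x - x₀) = x - x₀ := fun σ hσ => by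
    have h1 : σ • (v : (WQbar W).toAffine.Point) = v := congrArg Subtype.val (hfix σ hσ)
    rw [hP, smul_some, Affine.Point.some.injEq] at h1
    rw [map_sub, h1.1, (node_fixed hn hσ).1]
  obtain ⟨k, hk⟩ := valuation_eq_zpow_of_fixed hp.out hA
    (fun h0 => hg0 (by rw [h0, map_zero])) hfixx
  have hcp : h.cls (A.valuation (x - x₀)) ^ p = 1 := by
    have hpc := compW_pow_eq_one h (nsmul_coe_torsionBy v)
    rcases hc with hc | hc <;> rw [hc] at hpc
    · exact hpc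
    · rwa [inv_pow, inv_eq_one] at hpc
  rw [h.cls_mk0 hg0, ← QuotientGroup.mk_pow, QuotientGroup.eq_one_iff,
    Subgroup.mem_zpowers_iff] at hcp
  obtain ⟨m, hm⟩ := hcp
  have hm' := congrArg Units.val hm
  simp only [IsNodalForm.period, Units.val_zpow_eq_zpow_val, Units.val_pow_eq_pow_val,
    Units.val_mk0] at hm'
  have hD : A.valuation r ^ 2 = A.valuation (p : Qbar) ^ padicValInt p W.Δ := by
    rw [← h.v_Δ, variableChange_Δ, nodeChange, inv_one, Units.val_one, one_pow, one_mul,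
      WQbar_Δ, v_intCast_eq_pow hA hp.out hΔ0]
  have ht0 : 0 < A.valuation (p : Qbar) :=
    zero_lt_iff.2 ((map_ne_zero _).2 (Nat.cast_ne_zero.2 hp.out.ne_zero))
  have ht1 : A.valuation (p : Qbar) ≠ 1 := (A.mem_nonunits_iff.1 hA).ne
  rw [hD, hk, ← zpow_natCast, ← zpow_mul, ← zpow_natCast (_ ^ k), ← zpow_mul] at hm'
  have hkm : (padicValInt p W.Δ : ℤ) * m = k * p := zpow_right_injective₀ ht0 ht1 hm'
  obtain ⟨m', rfl⟩ : (p : ℤ) ∣ m :=
    ((Nat.prime_iff_prime_int.1 hp.out).dvd_or_dvd ⟨k, by rw [hkm, mul_comm]⟩).resolve_left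
      fun hd => hv (Int.natCast_dvd_natCast.1 hd)
  have hk' : k = (padicValInt p W.Δ : ℤ) * m' :=
    mul_right_cancel₀ (Nat.cast_ne_zero.2 hp.out.ne_zero : (p : ℤ) ≠ 0)
      (hkm.symm.trans (by ring))
  refine h.cls_ne_one hr.le hr1 ?_
  rw [h.cls_mk0 hg0, QuotientGroup.eq_one_iff, Subgroup.mem_zpowers_iff]
  refine ⟨m', Units.ext ?_⟩
  simp only [IsNodalForm.period, Units.val_zpow_eq_zpow_val, Units.val_pow_eq_pow_val,
    Units.val_mk0]
  rw [hD, hk, hk', zpow_mul, zpow_natCast]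

end FLTAgent.LevelThree
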