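import Fermat.Agent.LevelThree.SuperSingular
import Fermat.Agent.LevelThree.TresRamifie
import Fermat.Agent.LevelLower.Endgame.Dictionary
import Fermat.Agent.RT.Irr.Local
import Fermat.Agent.FlatModel.InertiaBase
import Fermat.Agent.WeilPairing.FrobeniusTrace

/-!
# The plane of the cyclotomic twist of `W[3]` at three

Its inertia image is neither toric nor that of a finite flat model when `W` is supersingular or
très ramifié at three.
-/

set_option autoImplicit false

noncomputable section

namespace FLTAgent.LevelThree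

open Matrix WeierstrassCurve FLTAgent.FlatModel IsLocalRing
open scoped WeierstrassCurve.Affine

local notation "Qbar" => AlgebraicClosure ℚ
local notation "Γℚ" => AlgebraicClosure ℚ ≃ₐ[ℚ] AlgebraicClosure ℚ

/-! ### Linear algebra over `𝔽₃` -/

abbrev M3 : Type := Matrix (Fin 2) (Fin 2) (ZMod 3)

/-- The twist by the determinant. -/
def detTwist {G : Type*} [Monoid G] (r : G →* M3) : G →* M3 where
  toFun g := (r g).det • r g
  map_one' := by simp
  map_mul' g h := by rw [map_mul, det_mul, smul_mul_smul_comm]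

/-- The action of a matrix representation on the plane. -/
def planeEnd {G : Type*} [Monoid G] (r : G →* M3) : G →* AddMonoid.End (Fin 2 → ZMod 3) where
  toFun g := AddMonoidHom.mk' (fun v => r g *ᵥ v) fun v w => Matrix.mulVec_add _ v w
  map_one' := AddMonoidHom.ext fun v => by
    show r 1 *ᵥ v = v
    rw [map_one, one_mulVec]
  map_mul' g h := AddMonoidHom.ext fun v => by
    show r (g * h) *ᵥ v = r g *ᵥ (r h *ᵥ v)
    rw [map_mul, Matrix.mulVec_mulVec]

theorem mem_span_iff_mem_zmultiples {X : Type*} [AddCommGroup X] [Module (ZMod 3) X] {v w : X} :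
    w ∈ Submodule.span (ZMod 3) {v} ↔ w ∈ AddSubgroup.zmultiples v := by
  rw [Submodule.mem_span_singleton, AddSubgroup.mem_zmultiples_iff]
  constructor
  · rintro ⟨c, rfl⟩
    obtain ⟨k, rfl⟩ := ZMod.intCast_surjective c
    exact ⟨k, (Int.cast_smul_eq_zsmul (ZMod 3) k v).symm⟩
  · rintro ⟨k, rfl⟩
    exact ⟨(k : ZMod 3), Int.cast_smul_eq_zsmul (ZMod 3) k v⟩

theorem det_eq_of_line {K : Type*} [Field K] {M : Matrix (Fin 2) (Fin 2) K} {v : Fin 2 → K}
    (hv : v ≠ 0) {c : K} (hc : M *ᵥ v = c • v)
    (h : ∀ w, M *ᵥ w - w ∈ Submodule.span K {v}) : M.det = c := by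
  obtain ⟨a, ha⟩ := Submodule.mem_span_singleton.1 (h (Pi.single 0 1))
  obtain ⟨b, hb⟩ := Submodule.mem_span_singleton.1 (h (Pi.single 1 1))
  have a0 := congrFun ha 0
  have a1 := congrFun ha 1
  have b0 := congrFun hb 0
  have b1 := congrFun hb 1
  have c0 := congrFun hc 0
  have c1 := congrFun hc 1
  simp [Matrix.mulVec, dotProduct, Fin.sum_univ_two] at a0 a1 b0 b1 c0 c1
  rw [det_fin_two]
  by_cases h0 : v 0 = 0
  · have h1 : v 1 ≠ 0 := fun h1 => hv (funext fun i => by fin_cases i <;> simp [h0, h1])
    refine mul_right_cancel₀ h1 ?_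
    rw [h0] at a0 b0 c1
    linear_combination c1 - (M 1 1 * v 1) * a0 + (M 1 0 * v 1) * b0
  · refine mul_right_cancel₀ h0 ?_
    have e1 : M 1 1 * v 0 = v 0 + b * v 0 * v 1 := by linear_combination -(v 0) * b1
    have e2 : M 1 0 * v 0 = a * v 0 * v 1 := by linear_combination -(v 0) * a1
    have e3 : M 0 0 = 1 + a * v 0 := by linear_combination -a0
    have e4 : M 0 1 = b * v 0 := by linear_combination -b0
    linear_combination c0 + M 0 0 * e1 - M 0 1 * e2
      + (b * v 0 * v 1) * e3 - (a * v 0 * v 1 + v 1) * e4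

/-- The charpoly at a tame eigenvalue. -/
theorem tame_root {X : Type*} [AddCommGroup X] [Module (ZMod 3) X] {k : Type*} [Field k]
    [CharP k 3] (φ : X →+ k) {T : X → X} {θ : k} (hT : ∀ x, φ (T x) = θ * φ x) {t d : ZMod 3}
    {x : X} (hx : φ x ≠ 0) (h : T (T x) - t • T x + d • x = 0) :
    θ ^ 2 - ZMod.castHom dvd_rfl k t * θ + ZMod.castHom dvd_rfl k d = 0 := by
  have hs : ∀ (c : ZMod 3) y, φ (c • y) = ZMod.castHom dvd_rfl k c * φ y := fun c y => by
    conv_lhs => rw [← ZMod.natCast_zmod_val c, Nat.cast_smul_eq_nsmul, map_nsmul, nsmul_eq_mul]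
    rw [← map_natCast (ZMod.castHom dvd_rfl k) c.val, ZMod.natCast_zmod_val]
  have h1 := congrArg φ h
  rw [map_add, map_sub, hs, hs, hT, hT, map_zero] at h1
  refine (mul_eq_zero.1 ?_).resolve_right hx
  linear_combination h1

/-- The tame exponents `1, 2, 3` do not allow both quadratic equations. -/
theorem tame_false {k : Type*} [Field k] [CharP k 3] {u : k} (hu : u ^ 4 = -1) {a b : ℕ}
    (ha : a = 1 ∨ a = 2 ∨ a = 3) (hb : b = 1 ∨ b = 2 ∨ b = 3) {t : ZMod 3}
    (h1 : (u ^ a) ^ 2 - ZMod.castHom dvd_rfl k t * u ^ a - 1 = 0)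
    (h2 : (u ^ b) ^ 2 + ZMod.castHom dvd_rfl k t * u ^ b - 1 = 0) : False := by
  have h3 : (3 : k) = 0 := CharP.cast_eq_zero k 3
  have hne : (1 : k) ≠ -1 := fun h => one_ne_zero (α := k) (by linear_combination h3 - h)
  have hu0 : u ≠ 0 := fun h => by rw [h, zero_pow (by norm_num)] at hu; simp at hu
  have hu2 : u ^ 2 ≠ 1 ∧ u ^ 2 ≠ -1 := by
    constructor <;> intro h <;> apply hne <;> rw [← hu, show u ^ 4 = (u ^ 2) ^ 2 by ring, h] <;> ring
  set s := ZMod.castHom dvd_rfl k t with hs
  have hcases : s = 0 ∨ s * s = 1 := by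
    rcases (show ∀ z : ZMod 3, z = 0 ∨ z * z = 1 by decide) t with h | h
    · exact Or.inl (by rw [hs, h, map_zero])
    · exact Or.inr (by rw [hs, ← map_mul, h, map_one])
  rcases hcases with h0 | hss
  · rw [h0] at h1
    rcases ha with rfl | rfl | rfl
    · exact hu2.1 (by linear_combination h1)
    · exact hne (by linear_combination hu - h1)
    · refine hu2.2 ?_
      linear_combination (u ^ 2) * hu - h1
  · have hno2 : ∀ e : k, e * e = 1 → u ^ 4 + e * u ^ 2 - 1 ≠ 0 := fun e he h => by
      have h' : e * u ^ 2 = -1 := by linear_combination h - hu + h3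
      have h'' : u ^ 2 = -e := by linear_combination e * h' - (u ^ 2) * he
      exact hne (by rw [← hu, show u ^ 4 = (u ^ 2) ^ 2 by ring, h'']; linear_combination -he)
    rcases ha with rfl | rfl | rfl
    swap
    · exact hno2 (-s) (by linear_combination hss) (by linear_combination h1)
    all_goals rcases hb with rfl | rfl | rfl
    all_goals first
      | exact hno2 s hss (by linear_combination h2)
      | skip
    · have : s * u = 0 := by linear_combination h1 - h2 + (s * u) * h3
      exact mul_ne_zero (fun h => one_ne_zero (α := k) (by linear_combination -hss + s * h)) hu0 this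
    · have hu3 : u ^ 3 = 2 * u + s := by linear_combination (u + s) * h1 + u * hss
      have e : u = s := by
        linear_combination s * (h2 - u ^ 2 * hu + h1 - s * hu3 - hss) - u * hss
      exact hu2.1 (by rw [e]; linear_combination hss)
    · have hu3 : u ^ 3 = 2 * u - s := by linear_combination (u - s) * h2 + u * hss
      have e : u = -s := by
        linear_combination -s * (h1 - u ^ 2 * hu + h2 + s * hu3 - hss) - u * hss
      exact hu2.1 (by rw [e]; linear_combination hss)
    · have : s * u ^ 3 = 0 := by linear_combination h1 - h2 + (s * u ^ 3) * h3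
      exact mul_ne_zero (fun h => one_ne_zero (α := k) (by linear_combination -hss + s * h))
        (pow_ne_zero 3 hu0) this

end FLTAgent.LevelThree
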