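import Fermat.Agent.LevelThree.TameModel
import Fermat.Agent.Reduction.Peu.Good
import Fermat.Agent.Torsion.MulFormula
import Fermat.Prelude.Def_FLTPrelim_Modularity

/-!
# Supersingular reduction at three

The trace modulo three is `b₂`; in the supersingular case no `x`-coordinate of a point of order
three is fixed by inertia, so inertia has no stable line.
-/

set_option autoImplicit false

noncomputable section

namespace FLTAgent.LevelThree

open WeierstrassCurve FLTAgent.Reduction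
open scoped WeierstrassCurve.Affine

local notation "Qbar" => AlgebraicClosure ℚ

theorem card_equation_three : ∀ a₁ a₂ a₃ a₄ a₆ : ZMod 3,
    (⟨a₁, a₂, a₃, a₄, a₆⟩ : WeierstrassCurve (ZMod 3)).Δ ≠ 0 →
    (((Finset.univ : Finset (ZMod 3 × ZMod 3)).filter fun q =>
      q.2 ^ 2 + a₁ * q.1 * q.2 + a₃ * q.2 = q.1 ^ 3 + a₂ * q.1 ^ 2 + a₄ * q.1 + a₆).card : ZMod 3) =
      -(a₁ ^ 2 + 4 * a₂) := by
  simp only [WeierstrassCurve.Δ, WeierstrassCurve.b₂, WeierstrassCurve.b₄, WeierstrassCurve.b₆,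
    WeierstrassCurve.b₈]
  decide +kernel

variable {W : WeierstrassCurve ℤ}

/-- Modulo three the trace of Frobenius at three is `b₂`. -/
theorem apOfModel_three_cast (hgood : ¬ (3 : ℤ) ∣ W.Δ) :
    (W.apOfModel 3 : ZMod 3) = (W.b₂ : ZMod 3) := by
  classical
  set V := W.reductionMod 3 with hV
  have hΔ : V.Δ ≠ 0 := by
    rw [hV, reductionMod, map_Δ, eq_intCast, Ne, ZMod.intCast_zmod_eq_zero_iff_dvd]
    exact hgood
  have hcard : V.card = ((Finset.univ : Finset (ZMod 3 × ZMod 3)).filter fun q =>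
      q.2 ^ 2 + V.a₁ * q.1 * q.2 + V.a₃ * q.2 =
        q.1 ^ 3 + V.a₂ * q.1 ^ 2 + V.a₄ * q.1 + V.a₆).card + 1 := by
    unfold WeierstrassCurve.card
    rw [Nat.card_congr (Affine.nonsingularPointEquiv V.toAffine)]
    show Nat.card (Option _) = _
    rw [Finite.card_option, Nat.card_eq_fintype_card, Fintype.card_subtype]
    congr 2
    refine Finset.filter_congr fun q _ => ?_
    rw [← V.toAffine.equation_iff_nonsingular_of_Δ_ne_zero hΔ, Affine.equation_iff]
  have key := card_equation_three V.a₁ V.a₂ V.a₃ V.a₄ V.a₆ hΔ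
  rw [apOfModel, ← hV, traceOfFrobenius, Nat.card_zmod, hcard]
  push_cast
  rw [key]
  have hb : (W.b₂ : ZMod 3) = V.b₂ := by rw [hV, reductionMod, map_b₂, eq_intCast]
  rw [hb, WeierstrassCurve.b₂]
  generalize V.a₁ ^ 2 + 4 * V.a₂ = u
  revert u
  decide

/-- In the supersingular case `3 ∣ b₂` and `b₈` is prime to three. -/
theorem b_facts_of_supersingular (hgood : ¬ (3 : ℤ) ∣ W.Δ) (ha : (3 : ℤ) ∣ W.apOfModel 3) :
    (3 : ℤ) ∣ W.b₂ ∧ ¬ (3 : ℤ) ∣ W.b₈ := by
  have hb2 : (3 : ℤ) ∣ W.b₂ := (ZMod.intCast_zmod_eq_zero_iff_dvd W.b₂ 3).1 (by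
    rw [← apOfModel_three_cast hgood]; exact (ZMod.intCast_zmod_eq_zero_iff_dvd _ 3).2 ha)
  refine ⟨hb2, fun hb8 => hgood ?_⟩
  have h := W.b_relation
  have h4 : (3 : ℤ) ∣ W.b₄ := Int.prime_three.dvd_of_dvd_pow (n := 2) (by
    rw [show W.b₄ ^ 2 = W.b₂ * W.b₆ - 4 * W.b₈ by linear_combination h]
    exact dvd_sub (hb2.mul_right _) (hb8.mul_left _))
  rw [WeierstrassCurve.Δ]
  refine dvd_add (dvd_sub (dvd_sub ?_ ?_) ?_) ?_
  · exact ((dvd_pow hb2 two_ne_zero).neg_right).mul_right _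
  · exact (dvd_pow h4 three_ne_zero).mul_left _
  · exact Dvd.dvd.mul_right (by norm_num) _
  · exact ((hb2.mul_left 9).mul_right _).mul_right _

/-- Inertia fixes no root of the three-division polynomial. -/
theorem root_not_fixed {A : ValuationSubring Qbar} (hA : A.LiesOverPrime 3)
    (hgood : ¬ (3 : ℤ) ∣ W.Δ) (ha : (3 : ℤ) ∣ W.apOfModel 3) {x : Qbar}
    (hx : (WQbar W).Ψ₃.eval x = 0) : ∃ τ ∈ Peu.inertiaRing A, τ x ≠ x := by
  obtain ⟨hb2, hb8⟩ := b_facts_of_supersingular hgood ha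
  have h3p : Nat.Prime 3 := Nat.prime_three
  have hI := Peu.isUnramifiedBase_inertiaRing (A := A) hA h3p
  have hΨ : 3 * x ^ 4 + (W.b₂ : Qbar) * x ^ 3 + 3 * (W.b₄ : Qbar) * x ^ 2
      + 3 * (W.b₆ : Qbar) * x + (W.b₈ : Qbar) = 0 := by
    rw [WQbar_eq, WeierstrassCurve.map_Ψ₃] at hx
    simpa [WeierstrassCurve.Ψ₃] using hx
  set t := A.valuation (3 : Qbar) with ht
  have ht1 : t < 1 := by
    have := hI.natCast_lt
    simpa using this
  have ht0 : 0 < t := zero_lt_iff.2 ((map_ne_zero _).2 (by norm_num))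
  have hle : ∀ m : ℤ, A.valuation (m : Qbar) ≤ 1 := fun m => v_le_one (intCast_mem A m)
  have hb2v : A.valuation (W.b₂ : Qbar) ≤ t := by
    have := v_intCast_le_of_dvd A (q := 3) (m := W.b₂) (by exact_mod_cast hb2)
    simpa using this
  have hb8v : A.valuation (W.b₈ : Qbar) = 1 := le_antisymm (hle _) (not_lt.1 fun h =>
    hb8 (by exact_mod_cast (v_intCast_lt_one_iff hA h3p W.b₈).1 h))
  have hx1 : 1 < A.valuation x := by
    by_contra h
    rw [not_lt] at h
    have hxp : ∀ n : ℕ, A.valuation (x ^ n) ≤ 1 := fun n => by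
      rw [map_pow]; exact pow_le_one₀ zero_le h
    have hs : A.valuation (3 * x ^ 4 + (W.b₂ : Qbar) * x ^ 3 + 3 * (W.b₄ : Qbar) * x ^ 2
        + 3 * (W.b₆ : Qbar) * x) < 1 := by
      refine A.valuation.map_add_lt (A.valuation.map_add_lt (A.valuation.map_add_lt ?_ ?_) ?_) ?_
      · rw [map_mul, ← ht]; exact (mul_le_of_le_one_right' (hxp 4)).trans_lt ht1
      · rw [map_mul]; exact ((mul_le_of_le_one_right' (hxp 3)).trans hb2v).trans_lt ht1
      · rw [map_mul, map_mul, ← ht]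
        exact ((mul_le_of_le_one_right' (hxp 2)).trans
          (mul_le_of_le_one_right' (hle _))).trans_lt ht1
      · rw [map_mul, map_mul, ← ht]
        exact ((mul_le_of_le_one_right' h).trans (mul_le_of_le_one_right' (hle _))).trans_lt ht1
    rw [eq_neg_of_add_eq_zero_left hΨ, Valuation.map_neg, hb8v] at hs
    exact hs.false
  by_contra! hfix
  have hx0 : x ≠ 0 := fun h => by simp [h] at hx1
  set z := x⁻¹ with hz
  have hz1 : A.valuation z < 1 := by rw [hz, map_inv₀]; exact inv_lt_one_of_one_lt₀ hx1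
  have hzt : A.valuation z ≤ t := by
    have := hI.le_natCast z (fun τ hτ => by rw [hz, map_inv₀, hfix τ hτ]) hz1
    simpa using this
  have hid : (3 : Qbar) = -((W.b₂ : Qbar) * z + 3 * (W.b₄ : Qbar) * z ^ 2 +
      3 * (W.b₆ : Qbar) * z ^ 3 + (W.b₈ : Qbar) * z ^ 4) := by
    rw [hz]
    field_simp
    linear_combination hΨ
  have hzp : ∀ n : ℕ, 1 ≤ n → A.valuation (z ^ n) ≤ t := fun n hn => by
    rw [map_pow]
    exact (pow_le_pow_right_of_le_one' hz1.le hn).trans (by rw [pow_one]; exact hzt)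
  have htt : t * t < t := mul_lt_of_lt_one_left ht0 ht1
  have hlt : A.valuation ((W.b₂ : Qbar) * z + 3 * (W.b₄ : Qbar) * z ^ 2 +
      3 * (W.b₆ : Qbar) * z ^ 3 + (W.b₈ : Qbar) * z ^ 4) < t := by
    refine A.valuation.map_add_lt (A.valuation.map_add_lt (A.valuation.map_add_lt ?_ ?_) ?_) ?_
    · rw [map_mul]; exact (mul_le_mul' hb2v hzt).trans_lt htt
    · rw [map_mul, map_mul, ← ht]
      exact (mul_le_mul' (mul_le_of_le_one_right' (hle _)) (hzp 2 (by norm_num))).trans_lt htt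
    · rw [map_mul, map_mul, ← ht]
      exact (mul_le_mul' (mul_le_of_le_one_right' (hle _)) (hzp 3 (by norm_num))).trans_lt htt
    · rw [map_mul, show z ^ 4 = z * z ^ 3 by ring, map_mul, hb8v, one_mul]
      exact (mul_le_mul' hzt (hzp 3 (by norm_num))).trans_lt htt
  have := ht
  rw [hid, Valuation.map_neg] at this
  exact hlt.ne this.symm

/-- **No stable line.** -/
theorem torsInertia_no_line {A : ValuationSubring Qbar} (hA : A.LiesOverPrime 3)
    (hgood : ¬ (3 : ℤ) ∣ W.Δ) (ha : (3 : ℤ) ∣ W.apOfModel 3) (v : TorsQ W 3) (hv : v ≠ 0) :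
    ∃ τ, Peu.torsInertia W 3 A τ v ∉ AddSubgroup.zmultiples v := by
  rcases hv' : (v : (WQbar W).toAffine.Point) with _ | ⟨x, y, h⟩
  · exact absurd (Subtype.ext hv') hv
  have hΔ0 : W.Δ ≠ 0 := fun h0 => hgood (h0 ▸ dvd_zero _)
  have h3v : (3 : ℤ) • (v : (WQbar W).toAffine.Point) = 0 := by
    have := nsmul_coe_torsionBy v
    rwa [← natCast_zsmul] at this
  have hΨ : (WQbar W).Ψ₃.eval x = 0 := by
    have h1 := h3v
    rw [hv', Torsion.zsmul_some_eq_zero_iff, show (3 : ℤ) = ((3 : ℕ) : ℤ) from rfl,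
      ΨSq_ofNat, if_neg (by decide), mul_one, preΨ'_three, Polynomial.eval_pow,
      pow_eq_zero_iff two_ne_zero] at h1
    exact h1
  obtain ⟨τ, hτ, hτx⟩ := root_not_fixed hA hgood ha hΨ
  refine ⟨⟨τ, hτ⟩, fun hmem => ?_⟩
  set σ := Peu.inertiaLift A ⟨τ, hτ⟩ with hσ
  have hcoe : ((Peu.torsInertia W 3 A ⟨τ, hτ⟩ v : TorsQ W 3) : (WQbar W).toAffine.Point) =
      σ • (v : (WQbar W).toAffine.Point) := rfl
  obtain ⟨k, hk⟩ := AddSubgroup.mem_zmultiples_iff.1 hmem
  have hk' : σ • (v : (WQbar W).toAffine.Point) = (k % 3) • (v : (WQbar W).toAffine.Point) := by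
    rw [← hcoe, ← hk, Submodule.coe_smul_of_tower]
    conv_lhs => rw [← Int.emod_add_ediv_mul k 3, add_zsmul, mul_zsmul, h3v, zsmul_zero, add_zero]
  have hσx : σ x = τ x := rfl
  rw [hv', smul_some] at hk'
  obtain hk3 | hk3 | hk3 : k % 3 = 0 ∨ k % 3 = 1 ∨ k % 3 = 2 := by omega
  · rw [hk3, zero_zsmul] at hk'
    exact Affine.Point.some_ne_zero _ hk'
  · rw [hk3, one_zsmul, Affine.Point.some.injEq] at hk'
    exact hτx (hσx ▸ hk'.1)
  · have e : (2 : ℤ) • (Affine.Point.some x y h : (WQbar W).toAffine.Point) =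
        -(Affine.Point.some x y h : (WQbar W).toAffine.Point) := by
      rw [← hv', eq_neg_iff_add_eq_zero]
      nth_rewrite 2 [← one_zsmul (v : (WQbar W).toAffine.Point)]
      rw [← add_zsmul]
      exact h3v
    rw [hk3, e, Affine.Point.neg_some, Affine.Point.some.injEq] at hk'
    exact hτx (hσx ▸ hk'.1)

end FLTAgent.LevelThree
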