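import Fermat.Agent.MazurP.LocalCyclo

/-!
# The tame characters of a connected irreducible plane modulo three

A connected model of a plane over `𝔽₃` with no stable line maps additively and injectively to the
residue field, inertia acting through a power `1`, `2` or `3` of the character of an eighth root
of `-3`.
-/

set_option autoImplicit false

noncomputable section

namespace FLTAgent.LevelThree

open FLTAgent.FlatModel IsLocalRing
open scoped fwdDiff

variable {K : Type*} [Field K] (A : ValuationSubring K)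

open Classical in
/-- The reduction of an element of `A`, and `0` outside. -/
def resOf (x : K) : ResidueField A := if h : x ∈ A then residue A ⟨x, h⟩ else 0

variable {A}

theorem resOf_of_mem {x : K} (h : x ∈ A) : resOf A x = residue A ⟨x, h⟩ := dif_pos h

theorem resOf_add {x y : K} (hx : x ∈ A) (hy : y ∈ A) :
    resOf A (x + y) = resOf A x + resOf A y := by
  rw [resOf_of_mem hx, resOf_of_mem hy, resOf_of_mem (add_mem hx hy), ← map_add]; rfl

theorem resOf_mul {x y : K} (hx : x ∈ A) (hy : y ∈ A) :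
    resOf A (x * y) = resOf A x * resOf A y := by
  rw [resOf_of_mem hx, resOf_of_mem hy, resOf_of_mem (mul_mem hx hy), ← map_mul]; rfl

theorem resOf_one : resOf A 1 = 1 := by
  rw [resOf_of_mem (one_mem A)]; exact map_one (residue A)

theorem resOf_neg {x : K} (hx : x ∈ A) : resOf A (-x) = -resOf A x := by
  rw [resOf_of_mem hx, resOf_of_mem (neg_mem hx), ← map_neg]; rfl

theorem resOf_pow {x : K} (hx : x ∈ A) (n : ℕ) : resOf A (x ^ n) = resOf A x ^ n := by
  rw [resOf_of_mem hx, resOf_of_mem (pow_mem hx n), ← map_pow]; rfl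

theorem resOf_eq_of_sub_lt {x y : K} (hx : x ∈ A) (hy : y ∈ A)
    (h : A.valuation (x - y) < 1) : resOf A x = resOf A y := by
  rw [resOf_of_mem hx, resOf_of_mem hy, ← sub_eq_zero, ← map_sub, residue_eq_zero_iff,
    A.valuation_lt_one_iff]
  exact h

theorem resOf_ne_zero {x : K} (h : A.valuation x = 1) : resOf A x ≠ 0 := by
  rw [resOf_of_mem ((A.valuation_le_one_iff x).1 h.le), Ne, residue_eq_zero_iff,
    A.valuation_lt_one_iff]
  exact h.not_lt

variable {p : ℕ} {I : Subgroup (K ≃+* K)}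

/-- The size of a small fixed element is an integral power of `|p|`. -/
theorem exists_v_eq_pow_of_fixed [CharZero K] (hI : IsUnramifiedBase p A I) (n : ℕ) {N : K}
    (hfix : ∀ τ ∈ I, τ N = N) (hlt : A.valuation N < 1)
    (hge : A.valuation (p : K) ^ n ≤ A.valuation N) :
    ∃ a, 1 ≤ a ∧ a ≤ n ∧ A.valuation N = A.valuation (p : K) ^ a := by
  induction n generalizing N with
  | zero => rw [pow_zero] at hge; exact absurd hge hlt.not_ge
  | succ n ih =>
    have hp0 : (0 : A.ValueGroup) < A.valuation (p : K) := hI.valuation_natCast_pos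
    rcases (hI.le_natCast N hfix hlt).eq_or_lt with h | h
    · exact ⟨1, le_rfl, by omega, by rw [h, pow_one]⟩
    obtain ⟨a, ha1, han, ha⟩ := ih (N := N / p)
      (fun τ hτ => by rw [map_div₀, hfix τ hτ, map_natCast])
      (by rw [map_div₀, div_lt_one₀ hp0]; exact h)
      (by rw [map_div₀, le_div_iff₀ hp0, ← pow_succ]; exact hge)
    refine ⟨a + 1, by omega, by omega, ?_⟩
    rw [pow_succ, ← ha, map_div₀, div_mul_cancel₀ _ hp0.ne']

variable {X : Type*} [AddCommGroup X] [Finite X] {ρ : I →* AddMonoid.End X}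
  {H : Submodule (baseRing A I) (X → K)}

/-- A group of order nine of exponent three with no stable line is simple. -/
theorem eq_bot_or_top_of_stable (hcard : Nat.card X = 9) (h3 : ∀ x : X, 3 • x = 0)
    (hline : ∀ x : X, x ≠ 0 → ∃ τ, ρ τ x ∉ AddSubgroup.zmultiples x) (S : AddSubgroup X)
    (hS : ∀ τ, ∀ x ∈ S, ρ τ x ∈ S) : S = ⊥ ∨ S = ⊤ := by
  by_cases hbot : S = ⊥
  · exact Or.inl hbot
  refine Or.inr ?_
  obtain ⟨x, hxS, hx⟩ : ∃ x ∈ S, x ≠ 0 := by
    by_contra! h
    exact hbot ((AddSubgroup.eq_bot_iff_forall S).2 h)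
  obtain ⟨τ, hτ⟩ := hline x hx
  have hle : AddSubgroup.zmultiples x ≤ S := AddSubgroup.zmultiples_le_of_mem hxS
  have h1 : Nat.card (AddSubgroup.zmultiples x) = 3 := by
    rw [Nat.card_zmultiples, addOrderOf_eq_prime (hp := ⟨Nat.prime_three⟩) (h3 x) hx]
  have h2 : Nat.card S ∣ 3 ^ 2 := by
    have := S.card_addSubgroup_dvd_card
    rwa [hcard] at this
  obtain ⟨k, hk, hcardS⟩ := (Nat.dvd_prime_pow Nat.prime_three).1 h2
  have h4 : 3 ∣ Nat.card S := h1 ▸ AddSubgroup.card_dvd_of_le hle
  interval_cases k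
  · rw [hcardS] at h4; norm_num at h4
  · exact absurd (AddSubgroup.eq_of_le_of_card_ge hle (by rw [h1, hcardS]; norm_num) ▸ hS τ x hxS) hτ
  · exact (AddSubgroup.card_eq_iff_eq_top S).1 (by rw [hcardS, hcard]; norm_num)

/-- Without stable line the model is connected. -/
theorem connectedPart_eq_top (hI : IsUnramifiedBase 3 A I) (hH : IsModel ρ H)
    (hcard : Nat.card X = 9) (h3 : ∀ x : X, 3 • x = 0)
    (hline : ∀ x : X, x ≠ 0 → ∃ τ, ρ τ x ∉ AddSubgroup.zmultiples x) :
    hH.connectedPart = ⊤ := by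
  refine (eq_bot_or_top_of_stable hcard h3 hline _
    fun τ x hx => hH.map_mem_connectedPart hI τ hx).resolve_left fun hbot => ?_
  have : Nontrivial X := Finite.one_lt_card_iff_nontrivial.1 (by omega)
  obtain ⟨x, hx⟩ := exists_ne (0 : X)
  obtain ⟨τ, hτ⟩ := hline x hx
  have h := hH.map_sub_mem_connectedPart hI τ x
  rw [hbot, AddSubgroup.mem_bot, sub_eq_zero] at h
  exact hτ (by rw [h]; exact AddSubgroup.mem_zmultiples x)

/-- **The tame characters.** -/
theorem exists_tame_hom [CharZero K] (hI : IsUnramifiedBase 3 A I) (hH : IsModel ρ H)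
    (hcard : Nat.card X = 9) (h3 : ∀ x : X, 3 • x = 0)
    (hline : ∀ x : X, x ≠ 0 → ∃ τ, ρ τ x ∉ AddSubgroup.zmultiples x)
    {π : K} (hπ : π ^ 8 = -3) :
    ∃ a : ℕ, (a = 1 ∨ a = 2 ∨ a = 3) ∧ ∃ φ : X →+ ResidueField A,
      (∀ x, x ≠ 0 → φ x ≠ 0) ∧
      ∀ (τ : I) (x : X), φ (ρ τ x) = resOf A ((τ : K ≃+* K) π / π) ^ a * φ x := by
  classical
  have := Fintype.ofFinite X
  have hnt : Nontrivial X := Finite.one_lt_card_iff_nontrivial.1 (by omega)
  obtain ⟨s, hs⟩ := hH.fg
  have hsne : s.Nonempty := by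
    rw [Finset.nonempty_iff_ne_empty]
    rintro rfl
    have h := hH.one_mem
    rw [← hs, Finset.coe_empty, Submodule.span_empty, Submodule.mem_bot] at h
    exact one_ne_zero (α := K) (congrFun h 0)
  obtain ⟨⟨g, x₁⟩, hgx, hmax⟩ := (s ×ˢ (Finset.univ : Finset X)).exists_max_image
    (fun q => A.valuation (q.1 q.2 - q.1 0)) (hsne.product Finset.univ_nonempty)
  rw [Finset.mem_product] at hgx
  have hgH : g ∈ H := hs ▸ Submodule.subset_span hgx.1
  set μ := A.valuation (g x₁ - g 0) with hμdef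
  have hμ : ∀ f ∈ H, ∀ x, A.valuation (f x - f 0) ≤ μ := by
    intro f hf
    rw [← hs] at hf
    induction hf using Submodule.span_induction with
    | mem f hf => exact fun x => hmax (f, x) (Finset.mem_product.2 ⟨hf, Finset.mem_univ _⟩)
    | zero => simp
    | add f₁ f₂ _ _ h₁ h₂ =>
      intro x
      rw [Pi.add_apply, Pi.add_apply, add_sub_add_comm]
      exact (A.valuation.map_add _ _).trans (max_le (h₁ x) (h₂ x))
    | smul c f _ h =>
      intro x
      rw [Pi.smul_apply, Pi.smul_apply, Subring.smul_def, Subring.smul_def, smul_eq_mul,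
        smul_eq_mul, ← mul_sub, map_mul]
      exact (mul_le_of_le_one_left' ((A.valuation_le_one_iff _).mpr c.2.1)).trans (h x)
  have hμ0 : 0 < μ := by
    refine zero_lt_iff.2 fun h0 => ?_
    obtain ⟨x, hx⟩ := exists_ne (0 : X)
    refine hx (hH.separates x 0 fun f hf => ?_)
    have h := hμ f hf x
    rw [h0] at h
    exact sub_eq_zero.1 ((map_eq_zero _).1 (le_zero_iff.1 h))
  have hμ1 : μ < 1 :=
    (connectedPart_eq_top hI hH hcard h3 hline ▸ AddSubgroup.mem_top x₁ :
      x₁ ∈ hH.connectedPart) g hgH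
  have hμ2 : μ ^ 2 < μ := by rw [pow_two]; exact mul_lt_of_lt_one_left hμ0 hμ1
  -- additivity to first order
  have hadd : ∀ x y, A.valuation (g (x + y) - g x - g y + g 0) ≤ μ ^ 2 := by
    intro x y
    obtain ⟨n, a, b, ha, hb, hab⟩ := hH.coprod g hgH
    have e : g (x + y) - g x - g y + g 0 = ∑ i, (a i x - a i 0) * (b i y - b i 0) := by
      have e1 := hab x y
      have e2 := hab x 0
      have e3 := hab 0 y
      have e4 := hab 0 0
      rw [add_zero] at e2 e4
      rw [zero_add] at e3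
      rw [e1, e2, e3, e4, ← Finset.sum_sub_distrib, ← Finset.sum_sub_distrib,
        ← Finset.sum_add_distrib]
      exact Finset.sum_congr rfl fun i _ => by ring
    rw [e]
    refine A.valuation.map_sum_le fun i _ => ?_
    rw [map_mul, pow_two]
    exact mul_le_mul' (hμ _ (ha i) x) (hμ _ (hb i) y)
  -- the lower bound
  have hv3 : 0 < A.valuation ((3 : ℕ) : K) := hI.valuation_natCast_pos
  have hlow : A.valuation ((3 : ℕ) : K) ≤ μ ^ 2 := by
    by_contra hlt
    rw [not_le] at hlt
    have h := shift_eq_sum_fwdDiff_iter x₁ g 3 0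
    rw [zero_add, h3 x₁] at h
    simp only [Finset.sum_range_succ, Finset.sum_range_zero, zero_add, Nat.choose_self,
      Nat.choose_zero_right, Nat.choose_one_right, Function.iterate_zero, id_eq,
      Function.iterate_one, fwdDiff, nsmul_eq_mul] at h
    have hc : (Nat.choose 3 2 : K) = ((3 : ℕ) : K) := by norm_num [Nat.choose]
    rw [hc] at h
    set D2 := (fwdDiff x₁)^[1 + 1] g 0 with hD2
    set D3 := (fwdDiff x₁)^[2 + 1] g 0 with hD3
    have h2le : A.valuation D2 ≤ μ ^ 2 :=
      MazurP.Local.v_fwdDiff_iter_le hH x₁ (fun f hf => hμ f hf x₁) 1 g hgH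
    have h3le : A.valuation D3 ≤ μ ^ 3 :=
      MazurP.Local.v_fwdDiff_iter_le hH x₁ (fun f hf => hμ f hf x₁) 2 g hgH
    have e : ((3 : ℕ) : K) * (g x₁ - g 0) = -(((3 : ℕ) : K) * D2 + D3) := by
      linear_combination (norm := (simp only [hD2, hD3, Nat.reduceAdd]; ring)) -h
    have hlt' : A.valuation (((3 : ℕ) : K) * (g x₁ - g 0)) <
        A.valuation ((3 : ℕ) : K) * μ := by
      rw [e, Valuation.map_neg]
      refine A.valuation.map_add_lt ?_ (h3le.trans_lt ?_)
      · rw [map_mul]
        exact mul_lt_mul_of_pos_left (h2le.trans_lt hμ2) hv3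
      · rw [pow_succ]
        exact mul_lt_mul_of_pos_right hlt hμ0
    rw [map_mul] at hlt'
    exact hlt'.false
  -- all points have the same size
  let S : AddSubgroup X :=
    { carrier := {x | A.valuation (g x - g 0) < μ}
      zero_mem' := by simpa using hμ0
      add_mem' := fun {x y} hx hy => by
        show A.valuation (g (x + y) - g 0) < μ
        rw [show g (x + y) - g 0 =
          (g (x + y) - g x - g y + g 0) + ((g x - g 0) + (g y - g 0)) by ring]
        exact A.valuation.map_add_lt ((hadd x y).trans_lt hμ2) (A.valuation.map_add_lt hx hy)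
      neg_mem' := fun {x} hx => by
        have e : -x = x + x := by
          have := h3 x
          rw [show (3 : ℕ) • x = x + x + x by abel] at this
          exact (eq_neg_of_add_eq_zero_left this).symm
        rw [e]
        show A.valuation (g (x + x) - g 0) < μ
        rw [show g (x + x) - g 0 =
          (g (x + x) - g x - g x + g 0) + ((g x - g 0) + (g x - g 0)) by ring]
        exact A.valuation.map_add_lt ((hadd x x).trans_lt hμ2) (A.valuation.map_add_lt hx hx) }
  have hSmem : ∀ {x}, x ∈ S ↔ A.valuation (g x - g 0) < μ := Iff.rfl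
  have hSbot : S = ⊥ := by
    refine (eq_bot_or_top_of_stable hcard h3 hline S fun τ x hx => ?_).resolve_right fun h => ?_
    · rw [hSmem, hH.apply_map hgH, ← hH.map_zero_fixed hgH τ, ← map_sub,
        hI.valuation_map _ τ.2]
      exact hSmem.1 hx
    · exact (hSmem.1 (h ▸ AddSubgroup.mem_top x₁ : x₁ ∈ S)).false
  have hunit : ∀ x, x ≠ 0 → A.valuation (g x - g 0) = μ := fun x hx =>
    (hμ g hgH x).eq_or_lt.resolve_right fun hlt => hx (by
      have : x ∈ S := hSmem.2 hlt
      rwa [hSbot, AddSubgroup.mem_bot] at this)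
  -- the product of the differences
  set Nz := (Finset.univ : Finset X).erase 0 with hNz
  set N := ∏ x ∈ Nz, (g x - g 0) with hN
  have hNv : A.valuation N = μ ^ 8 := by
    rw [hN, map_prod, Finset.prod_congr rfl fun x hx => hunit x (Finset.ne_of_mem_erase hx),
      Finset.prod_const, Finset.card_erase_of_mem (Finset.mem_univ _), Finset.card_univ,
      ← Nat.card_eq_fintype_card, hcard]
  have hbij : ∀ τ : I, Function.Bijective (ρ τ) := fun τ =>
    ⟨fun x y h => by simpa [inv_apply_apply] using congrArg (ρ τ⁻¹) h,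
      fun y => ⟨ρ τ⁻¹ y, apply_inv_apply ρ τ y⟩⟩
  have hNfix : ∀ τ ∈ I, τ N = N := by
    intro τ hτ
    rw [hN, map_prod]
    refine Finset.prod_equiv (Equiv.ofBijective _ (hbij ⟨τ, hτ⟩)) (fun x => ?_) fun x _ => ?_
    · simp only [hNz, Finset.mem_erase, Finset.mem_univ, and_true, Equiv.ofBijective_apply]
      exact not_congr ⟨fun h => by rw [h]; exact map_zero _, fun h =>
        (hbij ⟨τ, hτ⟩).1 (h.trans (map_zero _).symm)⟩
    · rw [map_sub, ← hH.apply_map hgH ⟨τ, hτ⟩, hH.map_zero_fixed hgH ⟨τ, hτ⟩]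
      rfl
  obtain ⟨a, ha1, ha4, ha⟩ := exists_v_eq_pow_of_fixed hI 4 hNfix
    (hNv ▸ pow_lt_one₀ zero_le hμ1 (by norm_num))
    (by rw [hNv, show μ ^ 8 = (μ ^ 2) ^ 4 by rw [← pow_mul]]
        exact pow_le_pow_left₀ zero_le hlow 4)
  have hπ0 : π ≠ 0 := fun h => by
    rw [h, zero_pow (by norm_num)] at hπ
    exact (by norm_num : (-3 : K) ≠ 0) hπ.symm
  have hπv : A.valuation π ^ 8 = A.valuation ((3 : ℕ) : K) := by
    rw [← map_pow, hπ, Valuation.map_neg, Nat.cast_ofNat]
  have hμπ : μ = A.valuation (π ^ a) := by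
    refine (pow_left_inj₀ (n := 8) zero_le zero_le (by norm_num)).1 ?_
    rw [← hNv, ha, map_pow, ← hπv, ← pow_mul, ← pow_mul, mul_comm]
  let z : X → K := fun x => (g x - g 0) / π ^ a
  have hzA : ∀ x, z x ∈ A := fun x => (A.valuation_le_one_iff _).1 (by
    rw [map_div₀, ← hμπ, div_le_one₀ hμ0]; exact hμ g hgH x)
  let φ : X →+ ResidueField A := AddMonoidHom.mk' (fun x => resOf A (z x)) fun x y => by
    rw [← resOf_add (hzA x) (hzA y)]
    refine resOf_eq_of_sub_lt (hzA _) (add_mem (hzA x) (hzA y)) ?_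
    rw [show z (x + y) - (z x + z y) = (g (x + y) - g x - g y + g 0) / π ^ a by
      simp only [z]; ring, map_div₀, ← hμπ, div_lt_one₀ hμ0]
    exact (hadd x y).trans_lt hμ2
  have hφ0 : ∀ x, x ≠ 0 → φ x ≠ 0 := fun x hx => resOf_ne_zero (by
    rw [map_div₀, hunit x hx, ← hμπ, div_self hμ0.ne'])
  have hu : ∀ τ : I, (τ : K ≃+* K) π / π ∈ A := fun τ => (A.valuation_le_one_iff _).1 (by
    rw [map_div₀, hI.valuation_map _ τ.2, div_self (by rwa [Ne, map_eq_zero])])
  have hφτ : ∀ (τ : I) (x : X),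
      φ (ρ τ x) = resOf A ((τ : K ≃+* K) π / π) ^ a * φ x := by
    intro τ x
    have hτz : (τ : K ≃+* K) (z x) ∈ A := (A.valuation_le_one_iff _).1 (by
      rw [hI.valuation_map _ τ.2]; exact (A.valuation_le_one_iff _).2 (hzA x))
    show resOf A (z (ρ τ x)) = _ * resOf A (z x)
    rw [← resOf_eq_of_sub_lt hτz (hzA x) (hI.map_sub_lt _ τ.2 _ (hzA x)),
      ← resOf_pow (hu τ), ← resOf_mul (pow_mem (hu τ) a) hτz]
    congr 1
    have hτπ : (τ : K ≃+* K) π ^ a ≠ 0 := pow_ne_zero _ (by simpa using hπ0)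
    simp only [z]
    rw [map_div₀, map_sub, map_pow, ← hH.apply_map hgH τ x, hH.map_zero_fixed hgH τ, div_pow]
    field_simp
  refine ⟨a, ?_, φ, hφ0, hφτ⟩
  by_contra hne
  obtain rfl : a = 4 := by omega
  obtain ⟨x, hx⟩ := exists_ne (0 : X)
  obtain ⟨τ, hτ⟩ := hline x hx
  apply hτ
  have hinj : ∀ x y, φ x = φ y → x = y := fun x y h => by
    by_contra hxy
    exact hφ0 (x - y) (sub_ne_zero.2 hxy) (by rw [map_sub, h, sub_self])
  have h8 : (((τ : K ≃+* K) π / π) ^ 4) * (((τ : K ≃+* K) π / π) ^ 4) = 1 := by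
    rw [← pow_add, div_pow, ← map_pow, hπ, map_neg, map_ofNat, div_self (by norm_num)]
  rcases mul_self_eq_one_iff.1 h8 with h | h
  · have : ρ τ x = x := hinj _ _ (by rw [hφτ, ← resOf_pow (hu τ), h, resOf_one, one_mul])
    rw [this]; exact AddSubgroup.mem_zmultiples x
  · have : ρ τ x = -x := hinj _ _ (by
      rw [hφτ, ← resOf_pow (hu τ), h, resOf_neg (one_mem A), resOf_one, map_neg, neg_one_mul])
    rw [this]; exact neg_mem (AddSubgroup.mem_zmultiples x)

end FLTAgent.LevelThree
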